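import Mathlib

/-!
Gauss extension of a valuation ring to a linearly disjoint compositum.
-/

set_option autoImplicit false

open scoped TensorProduct
open Submodule

noncomputable section

namespace Fermat.Agent.BC

variable (k K F M : Type*) [Field k] [Field K] [Field F] [Field M] [Algebra k K] [Algebra k F]
  [Algebra K M] [Algebra F M] [Algebra k M] [IsScalarTower k K M] [IsScalarTower k F M]

/-- `M` is the compositum of `K` and `F`, which are linearly disjoint over `k`. -/
structure BC : Prop where
  ld : ∀ {ι : Type} (b : ι → F), LinearIndependent k b →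
    LinearIndependent K (fun i => algebraMap F M (b i))
  gen : ∀ z : M, ∃ x ∈ span K (Set.range (algebraMap F M)),
    ∃ y ∈ span K (Set.range (algebraMap F M)), y ≠ 0 ∧ z * y = x

variable {k K F M}

/-- The product map from the tensor product. -/
def prodMap : K ⊗[k] F →ₐ[K] M :=
  Algebra.TensorProduct.lift (Algebra.ofId K M) (IsScalarTower.toAlgHom k F M)
    (fun _ _ => Commute.all _ _)

@[simp] theorem prodMap_tmul (a : K) (f : F) :
    prodMap (k := k) (K := K) (F := F) (M := M) (a ⊗ₜ f) = algebraMap K M a * algebraMap F M f := by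
  rw [prodMap, Algebra.TensorProduct.lift_tmul]
  rfl

theorem LinearIndependent.small {K V : Type*} [Field K] [AddCommGroup V] [Module K V]
    {ι : Type*} {b : ι → V} (h : ∀ (n : ℕ) (e : Fin n → ι), Function.Injective e →
      LinearIndependent K (b ∘ e)) : LinearIndependent K b := by
  rw [linearIndependent_iff']
  intro s g hg i hi
  let e : Fin s.card → ι := fun j => (s.equivFin.symm j : ι)
  have he : Function.Injective e := fun a b hab => by
    have := Subtype.ext hab
    exact s.equivFin.symm.injective this
  have h1 := Fintype.linearIndependent_iff.mp (h s.card e he) (fun j => g (e j)) (by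
    rw [← hg, ← Finset.sum_coe_sort s (fun i => g i • b i)]
    exact Fintype.sum_equiv s.equivFin.symm _ _ fun j => rfl)
  have := h1 (s.equivFin ⟨i, hi⟩)
  simpa [e] using this

theorem BC.ld' (h : BC k K F M) {ι : Type*} (b : ι → F) (hb : LinearIndependent k b) :
    LinearIndependent K (fun i => algebraMap F M (b i)) :=
  LinearIndependent.small fun _ e he => h.ld (b ∘ e) (hb.comp e he)

theorem BC.prodMap_injective (h : BC k K F M) :
    Function.Injective (prodMap (k := k) (K := K) (F := F) (M := M)) := by
  classical
  let B := Module.Basis.ofVectorSpace k F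
  let BK := Algebra.TensorProduct.basis K B
  have h1 := h.ld' B B.linearIndependent
  rw [injective_iff_map_eq_zero]
  intro x hx
  have h2 : prodMap (k := k) (K := K) (F := F) (M := M) x =
      Finsupp.linearCombination K (fun i => algebraMap F M (B i)) (BK.repr x) := by
    conv_lhs => rw [← BK.linearCombination_repr x]
    rw [Finsupp.linearCombination_apply, Finsupp.linearCombination_apply, map_finsuppSum]
    refine Finsupp.sum_congr fun i _ => ?_
    rw [map_smul, Algebra.TensorProduct.basis_apply, prodMap_tmul, map_one, one_mul]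
  rw [h2] at hx
  have h3 := (linearIndependent_iff.mp h1) _ hx
  exact (LinearEquiv.map_eq_zero_iff BK.repr).mp h3

theorem mem_span_iff {x : M} : x ∈ span K (Set.range (algebraMap F M)) ↔
    ∃ y, prodMap (k := k) (K := K) (F := F) (M := M) y = x := by
  constructor
  · intro hx
    induction hx using span_induction with
    | mem x hx =>
      obtain ⟨f, rfl⟩ := hx
      exact ⟨1 ⊗ₜ f, by rw [prodMap_tmul, map_one, one_mul]⟩
    | zero => exact ⟨0, map_zero _⟩
    | add x y _ _ hx hy =>
      obtain ⟨a, rfl⟩ := hx
      obtain ⟨b, rfl⟩ := hy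
      exact ⟨a + b, map_add _ _ _⟩
    | smul c x _ hx =>
      obtain ⟨a, rfl⟩ := hx
      exact ⟨c • a, map_smul _ _ _⟩
  · rintro ⟨y, rfl⟩
    induction y using TensorProduct.induction_on with
    | zero => rw [map_zero]; exact zero_mem _
    | tmul a f =>
      rw [prodMap_tmul, ← Algebra.smul_def]
      exact smul_mem _ _ (subset_span ⟨f, rfl⟩)
    | add x y hx hy => rw [map_add]; exact add_mem hx hy

section Gauss

variable (O : ValuationSubring K) [Algebra k O] [IsScalarTower k O K] (r : O →ₐ[k] k)

/-- the reduction `O ⊗ F → F` -/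
def red0 : O ⊗[k] F →ₐ[k] F :=
  Algebra.TensorProduct.lift ((Algebra.ofId k F).comp r) (AlgHom.id k F)
    (fun _ _ => Commute.all _ _)

@[simp] theorem red0_tmul (a : O) (f : F) :
    red0 (F := F) O r (a ⊗ₜ f) = algebraMap k F (r a) * f := by
  rw [red0, Algebra.TensorProduct.lift_tmul]
  rfl

/-- the inclusion `O ⊗ F → K ⊗ F` -/
def inc0 : O ⊗[k] F →ₐ[k] K ⊗[k] F :=
  Algebra.TensorProduct.map (IsScalarTower.toAlgHom k O K) (AlgHom.id k F)

@[simp] theorem inc0_tmul (a : O) (f : F) :
    inc0 (k := k) (F := F) O (a ⊗ₜ f) = (a : K) ⊗ₜ f := by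
  rw [inc0, Algebra.TensorProduct.map_tmul]
  rfl

theorem inc0_injective : Function.Injective (inc0 (k := k) (F := F) O) := by
  have h1 : Function.Injective (IsScalarTower.toAlgHom k O K).toLinearMap := by
    intro a b hab
    exact Subtype.ext hab
  have h2 := Module.Flat.rTensor_preserves_injective_linearMap (M := F) _ h1
  intro x y hxy
  apply h2
  have e : ∀ z : O ⊗[k] F, LinearMap.rTensor F (IsScalarTower.toAlgHom k O K).toLinearMap z =
      inc0 (k := k) (F := F) O z := by
    intro z
    induction z using TensorProduct.induction_on with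
    | zero => rw [map_zero, map_zero]
    | tmul a f => rfl
    | add x y hx hy => rw [map_add, map_add, hx, hy]
  rw [e, e, hxy]

theorem exists_scale {x : K ⊗[k] F} (hx : x ≠ 0) :
    ∃ c : K, c ≠ 0 ∧ ∃ x0 : O ⊗[k] F, x = c • inc0 (k := k) (F := F) O x0 ∧
      red0 (F := F) O r x0 ≠ 0 := by
  classical
  let B := Module.Basis.ofVectorSpace k F
  let BK := Algebra.TensorProduct.basis K B
  have ha : BK.repr x ≠ 0 := fun h0 => hx ((LinearEquiv.map_eq_zero_iff BK.repr).mp h0)
  set a := BK.repr x with hadef
  obtain ⟨j, hj, hmax⟩ := Finset.exists_max_image a.support (fun i => O.valuation (a i))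
    (Finsupp.support_nonempty_iff.mpr ha)
  have haj : a j ≠ 0 := Finsupp.mem_support_iff.mp hj
  have hmem : ∀ i, a i / a j ∈ O := by
    intro i
    by_cases hi : i ∈ a.support
    · rw [← O.valuation_le_one_iff, map_div₀]
      exact div_le_one_of_le₀ (hmax i hi) zero_le'
    · rw [Finsupp.notMem_support_iff.mp hi, zero_div]
      exact O.zero_mem
  let x0 : O ⊗[k] F := ∑ i ∈ a.support, (⟨a i / a j, hmem i⟩ : O) ⊗ₜ B i
  refine ⟨a j, haj, x0, ?_, ?_⟩
  · conv_lhs => rw [← BK.linearCombination_repr x]
    rw [Finsupp.linearCombination_apply, Finsupp.sum, map_sum, Finset.smul_sum]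
    refine Finset.sum_congr rfl fun i _ => ?_
    rw [inc0_tmul, Algebra.TensorProduct.basis_apply, TensorProduct.smul_tmul',
      TensorProduct.smul_tmul']
    congr 1
    rw [smul_eq_mul, mul_one, smul_eq_mul, mul_div_cancel₀ _ haj]
  · intro h0
    have h1 : red0 (F := F) O r x0 = ∑ i ∈ a.support, r ⟨a i / a j, hmem i⟩ • B i := by
      rw [map_sum]
      refine Finset.sum_congr rfl fun i _ => ?_
      rw [red0_tmul, Algebra.smul_def]
    rw [h1] at h0
    have h2 := linearIndependent_iff'.mp B.linearIndependent a.support _ h0 j hj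
    have h3 : (⟨a j / a j, hmem j⟩ : O) = 1 := Subtype.ext (div_self haj)
    rw [h3, map_one] at h2
    exact one_ne_zero h2

end Gauss

end Fermat.Agent.BC
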