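import Mathlib
import Fermat.Agent.BC.Gauss
import Fermat.Agent.Flat.Conc
import Fermat.Agent.MZ.LiftM0

/-!
Extension of the base field for the function field of `X₀(N)`.
-/

set_option autoImplicit false
set_option linter.unusedSectionVars false

noncomputable section

namespace Fermat.Agent.BC

open AlgebraicCurve Module Fermat.Agent.Flat Fermat.Agent.ModFun Fermat.Agent.LG
open ModularCurve Submodule
open scoped IntermediateField.algebraAdjoinAdjoin

variable (L : Type) [Field L] [Algebra L ℂ] (N : ℕ) [NeZero N]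

/-- the base change of function fields -/
@[instance_reducible] def algF : Algebra (F0 L N) (F0 ℂ N) := (liftF (algebraMap L ℂ) N).toAlgebra

/-- the constants -/
@[instance_reducible] def algL : Algebra L (F0 ℂ N) :=
  ((algebraMap ℂ (F0 ℂ N)).comp (algebraMap L ℂ)).toAlgebra

attribute [local instance] algF algL

theorem algebraMap_algF (x : F0 L N) : algebraMap (F0 L N) (F0 ℂ N) x =
    liftF (algebraMap L ℂ) N x := rfl

theorem algebraMap_algL (a : L) : algebraMap L (F0 ℂ N) a =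
    algebraMap ℂ (F0 ℂ N) (algebraMap L ℂ a) := rfl

theorem tower_algL : IsScalarTower L ℂ (F0 ℂ N) := IsScalarTower.of_algebraMap_eq fun _ => rfl

theorem liftF_algebraMap (a : L) : liftF (algebraMap L ℂ) N (algebraMap L (F0 L N) a) =
    algebraMap ℂ (F0 ℂ N) (algebraMap L ℂ a) := by
  apply Subtype.ext
  rw [coe_liftF]
  change coeffMap (algebraMap L ℂ) (algebraMap L (LaurentSeries L) a) =
    algebraMap ℂ (LaurentSeries ℂ) (algebraMap L ℂ a)
  rw [algebraMap_laurentSeries_eq_single, algebraMap_laurentSeries_eq_single]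
  exact coeffMap_single _ _ _

theorem tower_algF : IsScalarTower L (F0 L N) (F0 ℂ N) :=
  IsScalarTower.of_algebraMap_eq fun a => (liftF_algebraMap L N a).symm

theorem algebraMap_jF : algebraMap (F0 L N) (F0 ℂ N) (jF L N) = jF ℂ N := by
  rw [algebraMap_algF]
  apply Subtype.ext
  rw [coe_liftF]
  exact coeffMap_jqModC _

theorem coeff_smul_F0 {K : Type} [Field K] (a : K) (x : F0 K N) (n : ℤ) :
    ((a • x : F0 K N) : LaurentSeries K).coeff n = a * (x : LaurentSeries K).coeff n := by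
  have h1 : ((a • x : F0 K N) : LaurentSeries K) =
      HahnSeries.single 0 a * (x : LaurentSeries K) := by
    rw [← algebraMap_laurentSeries_eq_single, ← Algebra.smul_def]
    rfl
  rw [h1]
  exact HahnSeries.coeff_single_zero_mul

variable {L N} in
/-- linear disjointness -/
theorem bc_ld {ι : Type} (b : ι → F0 L N) (hb : LinearIndependent L b) :
    LinearIndependent ℂ (fun i => liftF (algebraMap L ℂ) N (b i)) := by
  rw [linearIndependent_iff'] at hb ⊢
  intro s g hg i hi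
  by_contra hne
  -- a linear form detecting `g i`
  obtain ⟨φ, hφ⟩ : ∃ φ : ℂ →ₗ[L] L, φ (g i) ≠ 0 := by
    by_contra hcon
    push Not at hcon
    exact hne ((Module.forall_dual_apply_eq_zero_iff L (g i)).mp hcon)
  apply hφ
  refine hb s (fun j => φ (g j)) ?_ i hi
  apply Subtype.ext
  ext n
  have h1 : ((∑ j ∈ s, g j • liftF (algebraMap L ℂ) N (b j) : F0 ℂ N) : LaurentSeries ℂ).coeff n
      = 0 := by
    rw [hg]
    rfl
  have e1 : ((∑ j ∈ s, g j • liftF (algebraMap L ℂ) N (b j) : F0 ℂ N) : LaurentSeries ℂ) =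
      ∑ j ∈ s, ((g j • liftF (algebraMap L ℂ) N (b j) : F0 ℂ N) : LaurentSeries ℂ) :=
    map_sum (F0 ℂ N).val _ _
  have e2 : ((∑ j ∈ s, φ (g j) • b j : F0 L N) : LaurentSeries L) =
      ∑ j ∈ s, ((φ (g j) • b j : F0 L N) : LaurentSeries L) := map_sum (F0 L N).val _ _
  rw [e1, HahnSeries.coeff_sum] at h1
  rw [e2, HahnSeries.coeff_sum]
  have h2 : ∑ j ∈ s, g j * algebraMap L ℂ ((b j : LaurentSeries L).coeff n) = 0 := by
    rw [← h1]
    refine Finset.sum_congr rfl fun j _ => ?_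
    rw [coeff_smul_F0]
    rfl
  have h3 := congrArg φ h2
  rw [map_sum, map_zero] at h3
  change _ = (0 : L)
  rw [← h3]
  refine Finset.sum_congr rfl fun j _ => ?_
  rw [mul_comm (g j), ← Algebra.smul_def, map_smul, coeff_smul_F0, smul_eq_mul, mul_comm]

theorem span_mul_mem {x y : F0 ℂ N}
    (hx : x ∈ span ℂ (Set.range (liftF (algebraMap L ℂ) N)))
    (hy : y ∈ span ℂ (Set.range (liftF (algebraMap L ℂ) N))) :
    x * y ∈ span ℂ (Set.range (liftF (algebraMap L ℂ) N)) := by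
  have h1 := Submodule.mul_mem_mul hx hy
  rw [Submodule.span_mul_span] at h1
  refine Submodule.span_mono ?_ h1
  rintro _ ⟨_, ⟨a, rfl⟩, _, ⟨b, rfl⟩, rfl⟩
  exact ⟨a * b, map_mul _ _ _⟩

theorem exists_span_of_adjoin {x : LaurentSeries ℂ} (hx : x ∈ Algebra.adjoin ℂ (gens ℂ N)) :
    ∃ y ∈ span ℂ (Set.range (liftF (algebraMap L ℂ) N)), (y : LaurentSeries ℂ) = x := by
  refine Algebra.adjoin_induction (fun z hz => ?_) (fun a => ?_) (fun a b _ _ ha hb => ?_)
        (fun a b _ _ ha hb => ?_) hx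
  · obtain ⟨d, hd0, hd, rfl⟩ := hz
    refine ⟨liftF (algebraMap L ℂ) N ⟨qExpand L d (jqModC L),
      IntermediateField.subset_adjoin _ _ ⟨d, hd0, hd, rfl⟩⟩, subset_span ⟨_, rfl⟩, ?_⟩
    rw [coe_liftF]
    change coeffMap _ (qExpand L d (jqModC L)) = _
    rw [ModularCurve.coeffMap_qExpand, coeffMap_jqModC]
  · refine ⟨algebraMap ℂ (F0 ℂ N) a, ?_, rfl⟩
    rw [Algebra.algebraMap_eq_smul_one, ← map_one (liftF (algebraMap L ℂ) N)]
    exact smul_mem _ _ (subset_span ⟨1, rfl⟩)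
  · obtain ⟨y, hy, rfl⟩ := ha
    obtain ⟨z, hz, rfl⟩ := hb
    exact ⟨y + z, add_mem hy hz, rfl⟩
  · obtain ⟨y, hy, rfl⟩ := ha
    obtain ⟨z, hz, rfl⟩ := hb
    exact ⟨y * z, span_mul_mem L N hy hz, rfl⟩

/-- **The function field of `X₀(N)` over `ℂ` is the compositum.** -/
theorem bc_F0 :
    letI := algF L N
    letI := algL L N
    haveI := tower_algL L N
    haveI := tower_algF L N
    BC L ℂ (F0 L N) (F0 ℂ N) := by
  let _ := tower_algL L N
  let _ := tower_algF L N
  refine ⟨fun b hb => bc_ld b hb, fun z => ?_⟩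
  obtain ⟨a, b, hb, hab⟩ := IsFractionRing.div_surjective
    (A := Algebra.adjoin ℂ (gens ℂ N)) (K := F0 ℂ N) z
  obtain ⟨x, hx, hxa⟩ := exists_span_of_adjoin L N a.2
  obtain ⟨y, hy, hyb⟩ := exists_span_of_adjoin L N b.2
  have hx' : x = algebraMap (A0 ℂ N) (F0 ℂ N) a := Subtype.ext hxa
  have hy' : y = algebraMap (A0 ℂ N) (F0 ℂ N) b := Subtype.ext hyb
  have hb0 : algebraMap (A0 ℂ N) (F0 ℂ N) b ≠ 0 := by
    intro h
    exact nonZeroDivisors.ne_zero hb ((IsFractionRing.to_map_eq_zero_iff (K := F0 ℂ N)).mp h)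
  refine ⟨x, hx, y, hy, by rw [hy']; exact hb0, ?_⟩
  rw [hx', hy', ← hab, div_mul_cancel₀ _ hb0]

theorem sep_jF_L [IsAlgClosed L] [CharZero L] : Sep L (jF L N) := MZ.sep_jF (algebraMap L ℂ)

theorem sep_jF_C : Sep ℂ (jF ℂ N) := MZ.sep_jF (RingHom.id ℂ)

end Fermat.Agent.BC
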