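import Mathlib

/-!
# Chevalley's extension theorem for homomorphisms to algebraically closed fields
-/

set_option autoImplicit false
set_option linter.unusedVariables false
set_option linter.style.haveILetI false

namespace Fermat.Agent.BC

variable {K k : Type*} [Field K] [Field k]

/-- A subring of `K × k` which is the graph of a function on a subring of `K`. -/
def IsGr (S : Subring (K × k)) : Prop := ∀ c : k, ((0, c) : K × k) ∈ S → c = 0

namespace IsGr

variable {S : Subring (K × k)} (hS : IsGr S)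

include hS

theorem unique {x : K} {c c' : k} (h : (x, c) ∈ S) (h' : (x, c') ∈ S) : c = c' := by
  have h1 : ((0, c - c') : K × k) ∈ S := by
    have := S.sub_mem h h'
    simpa using this
  exact sub_eq_zero.1 (hS _ h1)

/-- The function of a graph. -/
theorem exists_hom : ∃ g : (S.map (RingHom.fst K k)) →+* k,
    ∀ b : S.map (RingHom.fst K k), ((b : K), g b) ∈ S := by
  let f : S →+* S.map (RingHom.fst K k) :=
    ((RingHom.fst K k).comp S.subtype).codRestrict _ (fun s => ⟨s.1, s.2, rfl⟩)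
  have hf : Function.Bijective f := by
    constructor
    · rintro ⟨⟨x, c⟩, h⟩ ⟨⟨x', c'⟩, h'⟩ e
      have e1 : x = x' := congrArg Subtype.val e
      subst e1
      have := hS.unique h h'
      subst this
      rfl
    · rintro ⟨x, ⟨s, hs, rfl⟩⟩
      exact ⟨⟨s, hs⟩, rfl⟩
  let e := RingEquiv.ofBijective f hf
  refine ⟨(RingHom.snd K k).comp (S.subtype.comp e.symm.toRingHom), fun b => ?_⟩
  have h1 : ((e.symm b : S) : K × k).1 = b := congrArg Subtype.val (e.apply_symm_apply b)
  have h2 := (e.symm b).2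
  have h3 : ((b : K), ((e.symm b : S) : K × k).2) = ((e.symm b : S) : K × k) :=
    Prod.ext h1.symm rfl
  change ((b : K), ((e.symm b : S) : K × k).2) ∈ S
  rw [h3]
  exact h2

end IsGr

/-- The graph of a homomorphism. -/
def gr (B : Subring K) (g : B →+* k) : Subring (K × k) := (B.subtype.prod g).range

theorem mem_gr {B : Subring K} {g : B →+* k} {x : K} {c : k} :
    ((x, c) : K × k) ∈ gr B g ↔ ∃ h : x ∈ B, g ⟨x, h⟩ = c := by
  constructor
  · rintro ⟨b, hb⟩
    have h1 : (b : K) = x := congrArg Prod.fst hb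
    have h2 : g b = c := congrArg Prod.snd hb
    subst h1
    exact ⟨b.2, h2⟩
  · rintro ⟨h, rfl⟩
    exact ⟨⟨x, h⟩, rfl⟩

theorem isGr_gr (B : Subring K) (g : B →+* k) : IsGr (gr B g) := by
  intro c hc
  obtain ⟨h, rfl⟩ := mem_gr.1 hc
  exact map_zero g

/-- The maximal extensions. -/
theorem exists_max (R : Subring K) (φ : R →+* k) :
    ∃ (B : Subring K) (g : B →+* k) (h : R ≤ B), (∀ x : R, g ⟨x, h x.2⟩ = φ x) ∧
      ∀ (B' : Subring K) (g' : B' →+* k) (h' : B ≤ B'),
        (∀ x : B, g' ⟨x, h' x.2⟩ = g x) → B' ≤ B := by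
  obtain ⟨S, hRS, hS⟩ := zorn_le_nonempty₀ {S : Subring (K × k) | IsGr S} (by
    intro c hc hch y hy
    refine ⟨sSup c, ?_, fun z hz => le_sSup hz⟩
    intro a ha
    rw [Subring.mem_sSup_of_directedOn ⟨y, hy⟩ hch.directedOn] at ha
    obtain ⟨T, hT, haT⟩ := ha
    exact hc hT a haT) (gr R φ) (isGr_gr R φ)
  have hSg : IsGr S := hS.1
  obtain ⟨g, hg⟩ := hSg.exists_hom
  have hRB : R ≤ S.map (RingHom.fst K k) := fun x hx =>
    ⟨(x, φ ⟨x, hx⟩), hRS (mem_gr.2 ⟨hx, rfl⟩), rfl⟩
  refine ⟨S.map (RingHom.fst K k), g, hRB, fun x => ?_, fun B' g' h' hgg' => ?_⟩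
  · exact hSg.unique (hg _) (hRS (mem_gr.2 ⟨x.2, rfl⟩))
  · have h1 : S ≤ gr B' g' := by
      rintro ⟨x, c⟩ hxc
      have hx : x ∈ S.map (RingHom.fst K k) := ⟨(x, c), hxc, rfl⟩
      rw [mem_gr]
      refine ⟨h' hx, ?_⟩
      rw [hgg' ⟨x, hx⟩]
      exact hSg.unique (hg ⟨x, hx⟩) hxc
    have h2 : gr B' g' ≤ S := hS.2 (isGr_gr B' g') h1
    intro x hx
    exact ⟨(x, g' ⟨x, hx⟩), h2 (mem_gr.2 ⟨hx, rfl⟩), rfl⟩

theorem exists_lift_field {κ κ' k : Type*} [Field κ] [Field κ'] [Field k] [IsAlgClosed k]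
    (j : κ →+* κ') (hj : j.Finite) (g : κ →+* k) : ∃ ψ : κ' →+* k, ∀ a, ψ (j a) = g a := by
  algebraize [j, g]
  let ψ : κ' →ₐ[κ] k := IsAlgClosed.lift
  exact ⟨ψ.toRingHom, fun a => ψ.commutes a⟩

/-- **Chevalley's extension theorem.** -/
theorem exists_ext [IsAlgClosed k] (R : Subring K) (φ : R →+* k) :
    ∃ (O : ValuationSubring K) (r : O →+* k) (h : R ≤ O.toSubring),
      (∀ x : R, r ⟨x, h x.2⟩ = φ x) ∧ ∀ a : O, r a ≠ 0 → (a : K)⁻¹ ∈ O := by
  obtain ⟨B, g, hRB, hgφ, hmax⟩ := exists_max R φ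
  -- `B` is local with maximal ideal the kernel of `g`
  have hinv : ∀ b : B, g b ≠ 0 → (b : K)⁻¹ ∈ B := by
    intro b hb
    have hP : (RingHom.ker g).IsPrime := RingHom.ker_isPrime g
    let L := LocalSubring.ofPrime B (RingHom.ker g)
    have hu : ∀ y : (RingHom.ker g).primeCompl, IsUnit (g y) := fun y =>
      isUnit_iff_ne_zero.2 (fun h => y.2 (RingHom.mem_ker.2 h))
    have hle : L.toSubring ≤ B := by
      refine hmax L.toSubring (IsLocalization.lift (M := (RingHom.ker g).primeCompl) hu)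
        (LocalSubring.le_ofPrime B (RingHom.ker g)) (fun x => ?_)
      exact IsLocalization.lift_eq hu x
    have h1 : IsUnit (algebraMap B L.toSubring b) :=
      IsLocalization.map_units L.toSubring
        (⟨b, fun h => hb (RingHom.mem_ker.1 h)⟩ : (RingHom.ker g).primeCompl)
    obtain ⟨u, hu⟩ := isUnit_iff_exists_inv.1 h1
    have h2 : (b : K) * (u : K) = 1 := congrArg Subtype.val hu
    rw [← eq_inv_of_mul_eq_one_right h2]
    exact hle u.2
  have hkm : (RingHom.ker g).IsMaximal := by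
    rw [Ideal.isMaximal_iff]
    refine ⟨fun h => one_ne_zero ((map_one g).symm.trans (RingHom.mem_ker.1 h)), ?_⟩
    intro J x hJ hx hxJ
    have h1 : g x ≠ 0 := fun h => hx (RingHom.mem_ker.2 h)
    have h2 : x * ⟨(x : K)⁻¹, hinv x h1⟩ = 1 := Subtype.ext (mul_inv_cancel₀ (fun h0 => h1 (by
      have : x = 0 := Subtype.ext h0
      rw [this, map_zero])))
    rw [← h2]
    exact J.mul_mem_right _ hxJ
  obtain ⟨V, hBV, hmV⟩ := Ideal.image_subset_nonunits_valuationSubring (RingHom.ker g) hkm.ne_top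
  have hVB : V.toSubring ≤ B := by
    intro x hx
    let B' : Subalgebra B K := Algebra.adjoin B {x}
    have hB'V : ∀ y ∈ B', y ∈ V := by
      intro y hy
      refine Algebra.adjoin_induction (fun z hz => ?_) (fun b => ?_) (fun a b _ _ ha hb => ?_)
        (fun a b _ _ ha hb => ?_) hy
      · rw [Set.mem_singleton_iff.1 hz]
        exact hx
      · exact hBV b.2
      · exact V.add_mem _ _ ha hb
      · exact V.mul_mem _ _ ha hb
    let ι : B' →+* V := B'.val.toRingHom.codRestrict V.toSubring (fun y => hB'V y y.2)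
    have hne : (RingHom.ker g).map (algebraMap B B') ≠ ⊤ := by
      intro htop
      have h1 : (1 : B') ∈ (RingHom.ker g).map (algebraMap B B') := by rw [htop]; trivial
      have h2 := Ideal.mem_map_of_mem ι h1
      rw [Ideal.map_map, map_one] at h2
      have h3 : (RingHom.ker g).map (ι.comp (algebraMap B B')) ≤ IsLocalRing.maximalIdeal V := by
        rw [Ideal.map_le_iff_le_comap]
        intro b hb
        rw [Ideal.mem_comap, IsLocalRing.mem_maximalIdeal]
        have h4 : (b : K) ∈ V.nonunits := hmV ⟨b, hb, rfl⟩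
        exact (ValuationSubring.coe_mem_nonunits_iff).1 h4
      exact (Ideal.ne_top_iff_one _).1 (IsLocalRing.maximalIdeal.isMaximal V).ne_top (h3 h2)
    obtain ⟨M, hM, hle⟩ := Ideal.exists_le_maximal _ hne
    letI : Field (B ⧸ RingHom.ker g) := Ideal.Quotient.field _
    letI : Field (B' ⧸ M) := Ideal.Quotient.field _
    let j : (B ⧸ RingHom.ker g) →+* (B' ⧸ M) :=
      Ideal.quotientMap M (algebraMap B B') (Ideal.map_le_iff_le_comap.1 hle)
    have hft : (algebraMap B B').FiniteType := by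
      rw [RingHom.finiteType_algebraMap]
      exact Subalgebra.fg_iff_finiteType _ |>.1 ⟨{x}, by simp [B']⟩
    have hj : j.FiniteType := by
      refine RingHom.FiniteType.of_comp_finiteType (f := Ideal.Quotient.mk (RingHom.ker g)) ?_
      have h6 : j.comp (Ideal.Quotient.mk (RingHom.ker g)) =
          (Ideal.Quotient.mk M).comp (algebraMap B B') := by
        ext b
        rfl
      rw [h6]
      exact hft.comp_surjective Ideal.Quotient.mk_surjective
    obtain ⟨ψ, hψ⟩ := exists_lift_field j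
      (RingHom.finite_iff_finiteType_of_isJacobsonRing.2 hj) (RingHom.kerLift g)
    have h5 := hmax B'.toSubring (ψ.comp (Ideal.Quotient.mk M))
      (fun b hb => B'.algebraMap_mem ⟨b, hb⟩) (fun b => hψ (Ideal.Quotient.mk _ b))
    exact h5 (Algebra.self_mem_adjoin_singleton B x)
  have hVeq : V.toSubring = B := le_antisymm hVB hBV
  refine ⟨V, g.comp (Subring.inclusion hVB), hRB.trans hBV, fun x => ?_, fun a ha => ?_⟩
  · exact hgφ x
  · exact hBV (hinv _ ha)

end Fermat.Agent.BC
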