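import Mathlib
import Fermat.Agent.BC.Gauss

/-!
Gauss extension of a valuation ring to a linearly disjoint compositum, continued.
-/

set_option autoImplicit false
set_option linter.dupNamespace false
set_option linter.unusedSectionVars false

open scoped TensorProduct
open Submodule

noncomputable section

namespace Fermat.Agent.BC

variable {k K F M : Type*} [Field k] [Field K] [Field F] [Field M] [Algebra k K] [Algebra k F]
  [Algebra K M] [Algebra F M] [Algebra k M] [IsScalarTower k K M] [IsScalarTower k F M]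
  (O : ValuationSubring K) [Algebra k O] [IsScalarTower k O K] (r : O →ₐ[k] k)

/-- the map `O ⊗ F → M` -/
def toM (M : Type*) [Field M] [Algebra K M] [Algebra F M] [Algebra k M] [IsScalarTower k K M]
    [IsScalarTower k F M] : O ⊗[k] F →+* M :=
  (prodMap (k := k) (K := K) (F := F) (M := M)).toRingHom.comp (inc0 (k := k) (F := F) O).toRingHom

theorem toM_apply (x : O ⊗[k] F) : toM (F := F) O M x =
    prodMap (k := k) (K := K) (F := F) (M := M) (inc0 (k := k) (F := F) O x) := rfl

@[simp] theorem toM_tmul (a : O) (f : F) : toM (k := k) (F := F) O M (a ⊗ₜ f) =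
    algebraMap K M a * algebraMap F M f := by
  rw [toM_apply, inc0_tmul, prodMap_tmul]

theorem toM_injective (h : BC k K F M) : Function.Injective (toM (k := k) (F := F) O M) :=
  h.prodMap_injective.comp (inc0_injective O)

/-- The Gauss ring. -/
def gSub (_h : BC k K F M) : Subring M where
  carrier := {z | ∃ x y : O ⊗[k] F, red0 (F := F) O r y ≠ 0 ∧
    z * toM (k := k) (F := F) O M y = toM (k := k) (F := F) O M x}
  mul_mem' := by
    rintro a b ⟨x, y, hy, hz⟩ ⟨x', y', hy', hz'⟩
    refine ⟨x * x', y * y', ?_, ?_⟩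
    · rw [map_mul]; exact mul_ne_zero hy hy'
    · rw [map_mul, map_mul, ← hz, ← hz']; ring
  one_mem' := ⟨1, 1, by rw [map_one]; exact one_ne_zero, by rw [one_mul]⟩
  add_mem' := by
    rintro a b ⟨x, y, hy, hz⟩ ⟨x', y', hy', hz'⟩
    refine ⟨x * y' + x' * y, y * y', ?_, ?_⟩
    · rw [map_mul]; exact mul_ne_zero hy hy'
    · rw [map_mul, map_add, map_mul, map_mul, ← hz, ← hz']; ring
  zero_mem' := ⟨0, 1, by rw [map_one]; exact one_ne_zero, by rw [zero_mul, map_zero]⟩
  neg_mem' := by
    rintro a ⟨x, y, hy, hz⟩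
    exact ⟨-x, y, hy, by rw [map_neg, ← hz]; ring⟩

theorem toM_ne (h : BC k K F M) {y : O ⊗[k] F} (hy : red0 (F := F) O r y ≠ 0) :
    toM (k := k) (F := F) O M y ≠ 0 := by
  intro h0
  have : y = 0 := toM_injective O h (by rw [h0, map_zero])
  rw [this, map_zero] at hy
  exact hy rfl

theorem exists_norm (h : BC k K F M) (z : M) (hz : z ≠ 0) :
    ∃ c : K, c ≠ 0 ∧ ∃ x y : O ⊗[k] F, red0 (F := F) O r x ≠ 0 ∧ red0 (F := F) O r y ≠ 0 ∧
      algebraMap K M c * z * toM (k := k) (F := F) O M y = toM (k := k) (F := F) O M x := by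
  obtain ⟨x, hx, y, hy, hy0, hxy⟩ := h.gen z
  obtain ⟨x1, rfl⟩ := (mem_span_iff (k := k) (K := K) (F := F)).mp hx
  obtain ⟨y1, rfl⟩ := (mem_span_iff (k := k) (K := K) (F := F)).mp hy
  have hx1 : x1 ≠ 0 := by
    rintro rfl
    rw [map_zero] at hxy
    exact mul_ne_zero hz hy0 hxy
  have hy1 : y1 ≠ 0 := by
    rintro rfl
    exact hy0 (map_zero _)
  obtain ⟨c, hc, x0, hxc, hx0⟩ := exists_scale (F := F) O r hx1
  obtain ⟨d, hd, y0, hyd, hy0'⟩ := exists_scale (F := F) O r hy1
  refine ⟨d / c, div_ne_zero hd hc, x0, y0, hx0, hy0', ?_⟩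
  have hc' : algebraMap K M c ≠ 0 := by simpa using hc
  rw [hxc, hyd, map_smul, map_smul, Algebra.smul_def, Algebra.smul_def, ← toM_apply,
    ← toM_apply] at hxy
  rw [map_div₀]
  field_simp
  linear_combination hxy

/-- The Gauss valuation ring. -/
def gW (h : BC k K F M) : ValuationSubring M where
  toSubring := gSub O r h
  mem_or_inv_mem' := by
    intro z
    by_cases hz : z = 0
    · left; rw [hz]; exact Subring.zero_mem _
    obtain ⟨c, hc, x, y, hx, hy, hxy⟩ := exists_norm O r h z hz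
    have hx' := toM_ne O r h hx
    have hy' := toM_ne O r h hy
    have hc' : algebraMap K M c ≠ 0 := by simpa using hc
    rcases O.mem_or_inv_mem c with hcO | hcO
    · right
      refine ⟨(⟨c, hcO⟩ : O) ⊗ₜ 1 * y, x, hx, ?_⟩
      rw [map_mul, toM_tmul, map_one, mul_one, ← hxy]
      field_simp
    · left
      refine ⟨(⟨c⁻¹, hcO⟩ : O) ⊗ₜ 1 * x, y, hy, ?_⟩
      rw [map_mul, toM_tmul, map_one, mul_one, ← hxy]
      rw [map_inv₀]
      field_simp

theorem mem_gW (h : BC k K F M) {z : M} : z ∈ gW O r h ↔ ∃ x y : O ⊗[k] F,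
    red0 (F := F) O r y ≠ 0 ∧ z * toM (k := k) (F := F) O M y = toM (k := k) (F := F) O M x :=
  Iff.rfl

/-- numerator and denominator -/
theorem gρ_wd (h : BC k K F M) {z : M} {x y x' y' : O ⊗[k] F}
    (hy : red0 (F := F) O r y ≠ 0) (hy' : red0 (F := F) O r y' ≠ 0)
    (hz : z * toM (k := k) (F := F) O M y = toM (k := k) (F := F) O M x)
    (hz' : z * toM (k := k) (F := F) O M y' = toM (k := k) (F := F) O M x') :
    red0 (F := F) O r x / red0 (F := F) O r y = red0 (F := F) O r x' / red0 (F := F) O r y' := by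
  have h1 : x * y' = x' * y := by
    apply toM_injective O h
    rw [map_mul, map_mul, ← hz, ← hz']; ring
  have h2 := congrArg (red0 (F := F) O r) h1
  rw [map_mul, map_mul] at h2
  rw [div_eq_div_iff hy hy', h2]

/-- the reduction map -/
def gρ (h : BC k K F M) : gW O r h →+* F where
  toFun z := red0 (F := F) O r ((mem_gW O r h).mp z.2).choose /
    red0 (F := F) O r ((mem_gW O r h).mp z.2).choose_spec.choose
  map_one' := by
    rw [gρ_wd O r h ((mem_gW O r h).mp (1 : gW O r h).2).choose_spec.choose_spec.1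
      (y' := 1) (x' := 1) (by rw [map_one]; exact one_ne_zero)
      ((mem_gW O r h).mp (1 : gW O r h).2).choose_spec.choose_spec.2 (by simp)]
    rw [map_one, div_one]
  map_zero' := by
    rw [gρ_wd O r h ((mem_gW O r h).mp (0 : gW O r h).2).choose_spec.choose_spec.1
      (y' := 1) (x' := 0) (by rw [map_one]; exact one_ne_zero)
      ((mem_gW O r h).mp (0 : gW O r h).2).choose_spec.choose_spec.2 (by simp)]
    rw [map_zero, zero_div]
  map_mul' a b := by
    have ha := ((mem_gW O r h).mp a.2).choose_spec.choose_spec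
    have hb := ((mem_gW O r h).mp b.2).choose_spec.choose_spec
    have hab := ((mem_gW O r h).mp (a * b).2).choose_spec.choose_spec
    set x := ((mem_gW O r h).mp a.2).choose
    set y := ((mem_gW O r h).mp a.2).choose_spec.choose
    set x' := ((mem_gW O r h).mp b.2).choose
    set y' := ((mem_gW O r h).mp b.2).choose_spec.choose
    rw [gρ_wd O r h hab.1 (y' := y * y') (x' := x * x')
      (by rw [map_mul]; exact mul_ne_zero ha.1 hb.1)
      hab.2 (by
        rw [map_mul, map_mul, ← ha.2, ← hb.2]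
        push_cast
        ring)]
    rw [map_mul, map_mul, mul_div_mul_comm]
  map_add' a b := by
    have ha := ((mem_gW O r h).mp a.2).choose_spec.choose_spec
    have hb := ((mem_gW O r h).mp b.2).choose_spec.choose_spec
    have hab := ((mem_gW O r h).mp (a + b).2).choose_spec.choose_spec
    set x := ((mem_gW O r h).mp a.2).choose
    set y := ((mem_gW O r h).mp a.2).choose_spec.choose
    set x' := ((mem_gW O r h).mp b.2).choose
    set y' := ((mem_gW O r h).mp b.2).choose_spec.choose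
    rw [gρ_wd O r h hab.1 (y' := y * y') (x' := x * y' + x' * y)
      (by rw [map_mul]; exact mul_ne_zero ha.1 hb.1)
      hab.2 (by
        rw [map_mul, map_add, map_mul, map_mul, ← ha.2, ← hb.2]
        push_cast
        ring)]
    rw [map_mul, map_add, map_mul, map_mul, div_add_div _ _ ha.1 hb.1, mul_comm (red0 _ _ x')]

theorem gρ_eq (h : BC k K F M) (z : gW O r h) {x y : O ⊗[k] F} (hy : red0 (F := F) O r y ≠ 0)
    (hz : (z : M) * toM (k := k) (F := F) O M y = toM (k := k) (F := F) O M x) :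
    gρ O r h z = red0 (F := F) O r x / red0 (F := F) O r y := by
  have hz' := ((mem_gW O r h).mp z.2).choose_spec.choose_spec
  exact gρ_wd O r h hz'.1 hy hz'.2 hz

theorem gW_F (h : BC k K F M) (f : F) : ∃ hf : algebraMap F M f ∈ gW O r h,
    gρ O r h ⟨_, hf⟩ = f := by
  have hone : red0 (F := F) O r 1 ≠ 0 := by rw [map_one]; exact one_ne_zero
  have e : algebraMap F M f * toM (k := k) (F := F) O M 1 =
      toM (k := k) (F := F) O M ((1 : O) ⊗ₜ f) := by
    rw [map_one, toM_tmul]
    simp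
  refine ⟨⟨_, _, hone, e⟩, ?_⟩
  rw [gρ_eq O r h _ hone e, map_one, div_one, red0_tmul, map_one, map_one, one_mul]

theorem gW_K (h : BC k K F M) (a : O) : ∃ ha : algebraMap K M a ∈ gW O r h,
    gρ O r h ⟨_, ha⟩ = algebraMap k F (r a) := by
  have hone : red0 (F := F) O r 1 ≠ 0 := by rw [map_one]; exact one_ne_zero
  have e : algebraMap K M a * toM (k := k) (F := F) O M 1 =
      toM (k := k) (F := F) O M (a ⊗ₜ (1 : F)) := by
    rw [map_one, toM_tmul, map_one]
  refine ⟨⟨_, _, hone, e⟩, ?_⟩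
  rw [gρ_eq O r h _ hone e, map_one, div_one, red0_tmul, mul_one]

theorem gW_inv (h : BC k K F M) (z : gW O r h) (hz : gρ O r h z ≠ 0) : (z : M)⁻¹ ∈ gW O r h := by
  obtain ⟨x, y, hy, e⟩ := (mem_gW O r h).mp z.2
  rw [gρ_eq O r h z hy e] at hz
  have hx : red0 (F := F) O r x ≠ 0 := fun h0 => hz (by rw [h0, zero_div])
  have hx' := toM_ne O r h hx
  have hz0 : (z : M) ≠ 0 := by
    intro h0
    rw [h0, zero_mul] at e
    exact hx' e.symm
  refine ⟨y, x, hx, ?_⟩
  rw [← e]
  field_simp

theorem gW_scale (h : BC k K F M) (z : M) (hz : z ≠ 0) : ∃ c : K, c ≠ 0 ∧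
    ∃ hc : algebraMap K M c * z ∈ gW O r h, gρ O r h ⟨_, hc⟩ ≠ 0 := by
  obtain ⟨c, hc, x, y, hx, hy, hxy⟩ := exists_norm O r h z hz
  refine ⟨c, hc, ⟨x, y, hy, hxy⟩, ?_⟩
  rw [gρ_eq O r h _ hy hxy]
  exact div_ne_zero hx hy

end Fermat.Agent.BC
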