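import Mathlib
import Fermat.Agent.BC.Gauss2
import Fermat.Agent.Flat.Conc
import Fermat.Agent.Flat.Model3

/-!
Extension of the base field: the Gauss reduction is a good reduction.
-/

set_option autoImplicit false
set_option linter.dupNamespace false
set_option linter.unusedSectionVars false

open scoped TensorProduct

noncomputable section

namespace Fermat.Agent.BC

open AlgebraicCurve IntermediateField Module Fermat.Agent.Flat
open Polynomial (aeval)

section Basic

variable {k K F M : Type*} [Field k] [Field K] [Field F] [Field M] [Algebra k K] [Algebra k F]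
  [Algebra K M] [Algebra F M] [Algebra k M] [IsScalarTower k K M] [IsScalarTower k F M]

theorem am_aeval (t : F) (P : Polynomial k) : algebraMap F M (aeval t P) =
    aeval (algebraMap F M t) (P.map (algebraMap k K)) := by
  rw [Polynomial.aeval_map_algebraMap, Polynomial.aeval_algebraMap_apply]

variable (K M) in
theorem am_mem_adjoin {t x : F} (hx : x ∈ Algebra.adjoin k {t}) :
    algebraMap F M x ∈ Algebra.adjoin K {algebraMap F M t} := by
  rw [Algebra.adjoin_singleton_eq_range_aeval] at hx ⊢
  obtain ⟨P, rfl⟩ := hx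
  exact ⟨P.map (algebraMap k K), (am_aeval t P).symm⟩

variable (K M) in
theorem am_isIntegral {t z : F} (hz : IsIntegral (Algebra.adjoin k {t}) z) :
    IsIntegral (Algebra.adjoin K {algebraMap F M t}) (algebraMap F M z) := by
  let φ : Algebra.adjoin k {t} →+* Algebra.adjoin K {algebraMap F M t} :=
    ((algebraMap F M).comp (Algebra.adjoin k {t}).val.toRingHom).codRestrict
      (Algebra.adjoin K {algebraMap F M t}) fun x => am_mem_adjoin K M x.2
  exact hz.map_of_comp_eq φ (algebraMap F M) (RingHom.ext fun x => rfl)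

variable (K M) in
theorem am_reg [IsAlgClosed k] {t z : F} (ht : Sep k t) (hz : Reg k t z) :
    Reg K (algebraMap F M t) (algebraMap F M z) := fun v hv =>
  ord_nonneg_of_isIntegral (am_isIntegral K M (ht.isIntegral hz)) v hv

variable (K M) in
theorem am_mem_nL [IsAlgClosed k] [IsAlgClosed K] {t z : F} (ht : Sep k t)
    (ht' : Sep K (algebraMap F M t)) {n : ℕ} (hz : z ∈ riemannRochSpace (n • pol (K := k) t)) :
    algebraMap F M z ∈ riemannRochSpace (n • pol (K := K) (algebraMap F M t)) := by
  rw [mem_nL_iff ht] at hz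
  rw [mem_nL_iff ht']
  refine ⟨am_reg K M ht hz.1, ?_⟩
  have h1 := am_reg K M ht.inv hz.2
  rwa [map_inv₀, map_mul, map_pow, map_inv₀] at h1

/-- a basis of `F` over `k(t)` spans `M` over `K(t)` -/
theorem exists_span (h : BC k K F M) {t : F} (ht : Sep k t) (ht' : Sep K (algebraMap F M t))
    {n : ℕ} (b : Basis (Fin n) k⟮t⟯ F) (x : M) :
    ∃ (Q : Polynomial K) (P : Fin n → Polynomial K), Q ≠ 0 ∧
      aeval (algebraMap F M t) Q * x = ∑ i, aeval (algebraMap F M t) (P i) *
        algebraMap F M (b i) := by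
  classical
  set t' := algebraMap F M t with ht'def
  have := ht'.fd
  have halg : Algebra.IsAlgebraic K⟮t'⟯ M := Algebra.IsAlgebraic.of_finite _ _
  have htr := ht'.trans
  let T : Submodule K⟮t'⟯ M := Submodule.span _ (Set.range fun i => algebraMap F M (b i))
  have h1 : ∀ y : F, algebraMap F M y ∈ T := by
    intro y
    obtain ⟨Q, P, hQ, hP⟩ := exists_common ht.trans (fun i => b.repr y i)
    have hQ' : Q.map (algebraMap k K) ≠ 0 :=
      (Polynomial.map_ne_zero_iff (algebraMap k K).injective).mpr hQ
    have hQ0 : aeval t' (Q.map (algebraMap k K)) ≠ 0 := fun h => hQ' ((aeval_eq_zero_iff htr).mp h)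
    have h2 : aeval t' (Q.map (algebraMap k K)) * algebraMap F M y =
        ∑ i, aeval t' ((P i).map (algebraMap k K)) * algebraMap F M (b i) := by
      rw [← am_aeval, ← map_mul]
      conv_lhs => rw [← b.sum_repr y]
      rw [Finset.mul_sum, map_sum]
      refine Finset.sum_congr rfl fun i _ => ?_
      rw [← am_aeval, ← map_mul, ← hP i, Algebra.smul_def]
      congr 1
      rw [← mul_assoc]
      rfl
    let g : Polynomial K → K⟮t'⟯ := fun P => aeval (AdjoinSimple.gen K t') P
    have hg : ∀ P, algebraMap K⟮t'⟯ M (g P) = aeval t' P := by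
      intro P
      simp only [g]
      rw [← Polynomial.aeval_algebraMap_apply, AdjoinSimple.algebraMap_gen]
    have h3 : algebraMap F M y = ∑ i, (g ((P i).map (algebraMap k K)) /
        g (Q.map (algebraMap k K))) • algebraMap F M (b i) := by
      apply mul_left_cancel₀ hQ0
      rw [h2, Finset.mul_sum]
      refine Finset.sum_congr rfl fun i _ => ?_
      rw [Algebra.smul_def, map_div₀, hg, hg, ← mul_assoc, mul_div_cancel₀ _ hQ0]
    rw [h3]
    exact Submodule.sum_mem _ fun i _ => Submodule.smul_mem _ _ (Submodule.subset_span ⟨i, rfl⟩)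
  have hone : (1 : M) ∈ T := by
    have := h1 1
    rwa [map_one] at this
  have hmul : T * T ≤ T := by
    rw [Submodule.span_mul_span, Submodule.span_le]
    rintro _ ⟨_, ⟨i, rfl⟩, _, ⟨j, rfl⟩, rfl⟩
    change algebraMap F M (b i) * algebraMap F M (b j) ∈ T
    rw [← map_mul]
    exact h1 _
  let S : Subalgebra K⟮t'⟯ M :=
    T.toSubalgebra hone fun a b ha hb => hmul (Submodule.mul_mem_mul ha hb)
  have hST : ∀ x, x ∈ S ↔ x ∈ T := fun x => Submodule.mem_toSubalgebra
  let S' : IntermediateField K⟮t'⟯ M :=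
    { S with
      inv_mem' := fun x hx => S.inv_mem_of_algebraic (x := ⟨x, hx⟩)
        (Algebra.IsAlgebraic.isAlgebraic _) }
  have hS : ∀ z ∈ Submodule.span K (Set.range (algebraMap F M)), z ∈ S' := by
    intro z hz
    induction hz using Submodule.span_induction with
    | mem z hz => obtain ⟨y, rfl⟩ := hz; exact (hST _).mpr (h1 y)
    | zero => exact S'.zero_mem
    | add a b _ _ ha hb => exact S'.add_mem ha hb
    | smul c a _ ha =>
      rw [Algebra.smul_def]
      refine S'.mul_mem ?_ ha
      rw [IsScalarTower.algebraMap_apply K K⟮t'⟯ M]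
      exact S'.algebraMap_mem _
  obtain ⟨u, hu, w, hw, hw0, huw⟩ := h.gen x
  have hx : x ∈ S' := by
    have : x = u * w⁻¹ := by rw [← huw, mul_assoc, mul_inv_cancel₀ hw0, mul_one]
    rw [this]
    exact S'.mul_mem (hS u hu) (S'.inv_mem (hS w hw))
  have hxT : x ∈ T := (hST _).mp hx
  obtain ⟨c, hc⟩ := (Submodule.mem_span_range_iff_exists_fun _).mp hxT
  obtain ⟨Q, P, hQ, hP⟩ := exists_common htr c
  refine ⟨Q, P, hQ, ?_⟩
  rw [← hc, Finset.mul_sum]
  refine Finset.sum_congr rfl fun i _ => ?_
  rw [Algebra.smul_def, ← mul_assoc]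
  congr 1
  exact hP i

theorem basis_ind {t : F} (ht : Sep k t) {n : ℕ} (b : Basis (Fin n) k⟮t⟯ F)
    (P : Fin n → Polynomial k) (hP : ∑ i, aeval t (P i) * b i = 0) : ∀ i, P i = 0 := by
  classical
  let g : Polynomial k → k⟮t⟯ := fun P => aeval (AdjoinSimple.gen k t) P
  have hg : ∀ P, algebraMap k⟮t⟯ F (g P) = aeval t P := by
    intro P
    simp only [g]
    rw [← Polynomial.aeval_algebraMap_apply, AdjoinSimple.algebraMap_gen]
  have h1 : ∑ i, g (P i) • b i = 0 := by
    rw [← hP]
    refine Finset.sum_congr rfl fun i _ => ?_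
    rw [Algebra.smul_def, hg]
  have h2 := Fintype.linearIndependent_iff.mp b.linearIndependent (fun i => g (P i)) h1
  intro i
  have h3 := hg (P i)
  rw [h2 i, map_zero] at h3
  exact (aeval_eq_zero_iff ht.trans).mp h3.symm

end Basic

section Inst

variable {k K F M : Type*} [Field k] [Field K] [Field F] [Field M] [Algebra k K] [Algebra k F]
  [Algebra K M] [Algebra F M] [Algebra k M] [IsScalarTower k K M] [IsScalarTower k F M]
  (O : ValuationSubring K) [Algebra k O] [IsScalarTower k O K] (r : O →ₐ[k] k)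

/-- the trivial action -/
@[instance_reducible]
def trivAct (Ω : Type*) [Semiring Ω] : MulSemiringAction Unit Ω where
  smul _ a := a
  one_smul _ := rfl
  mul_smul _ _ _ := rfl
  smul_zero _ := rfl
  smul_add _ _ _ := rfl
  smul_one _ := rfl
  smul_mul _ _ _ := rfl

theorem r_surj : Function.Surjective r := fun c => ⟨algebraMap k O c, by rw [r.commutes]; rfl⟩

theorem r_unit (a : O) (ha : r a ≠ 0) : (a : K)⁻¹ ∈ O := by
  have h1 : RingHom.ker (r : O →+* k) = IsLocalRing.maximalIdeal O := by
    have h2 : (RingHom.ker (r : O →+* k)).IsMaximal :=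
      RingHom.ker_isMaximal_of_surjective (r : O →+* k) (r_surj O r)
    exact IsLocalRing.eq_maximalIdeal h2
  have h2 : a ∉ IsLocalRing.maximalIdeal O := by
    rw [← h1, RingHom.mem_ker]
    exact ha
  have h3 : IsUnit a := by
    by_contra hcon
    exact h2 ((IsLocalRing.mem_maximalIdeal a).mpr hcon)
  have h4 : O.valuation (a : K) = 1 := (O.valuation_eq_one_iff a).mp h3
  rw [← O.valuation_le_one_iff, map_inv₀, h4, inv_one]

theorem pre (h : BC k K F M) {t : F} (ht : Sep k t) (ht' : Sep K (algebraMap F M t))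
    {n : ℕ} (b : Basis (Fin n) k⟮t⟯ F) :
    Pre (r : O →+* k) (gW O r h).toSubring (gρ O r h) (algebraMap F M t) t
      (fun i => algebraMap F M (b i)) where
  surj := r_surj O r
  unit := r_unit O r
  alg a ha := (gW_K O r h ⟨a, ha⟩).1
  ralg a ha := (gW_K O r h a).2
  runit z hz := gW_inv O r h z hz
  tW := (gW_F O r h t).1
  tρ := (gW_F O r h t).2
  tr := ht'.trans
  trb := ht.trans
  eW i := (gW_F O r h (b i)).1
  span x := exists_span h ht ht' b x
  ind P hP := by
    refine basis_ind ht b P ?_
    rw [← hP]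
    refine Finset.sum_congr rfl fun i _ => ?_
    rw [show gρ O r h ⟨algebraMap F M (b i), (gW_F O r h (b i)).1⟩ = b i from
      (gW_F O r h (b i)).2]

variable [IsAlgClosed k] [IsAlgClosed K]

/-- **Good reduction for base change.** -/
theorem goodCrv (h : BC k K F M) {t : F} (ht : Sep k t) (ht' : Sep K (algebraMap F M t)) :
    let _ := trivAct K
    GoodCrv (G := Unit) (r : O →+* k) (1 : Unit →* SemilinearAut K M) (gW O r h) (gρ O r h)
      (algebraMap F M t) t := by
  let _ := trivAct K
  have := ht.fd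
  let b := finBasis k⟮t⟯ F
  have hp := pre O r h ht ht' b
  have hG := hp.goodCrv (G := Unit) (γ := (1 : Unit →* SemilinearAut K M)) ht' ht
    ⟨0, fun n _ zb hzb => ⟨⟨algebraMap F M zb, (gW_F O r h zb).1⟩, am_mem_nL K M ht ht' hzb,
      (gW_F O r h zb).2, fun g => one_smul _ _⟩⟩
    (fun g a => rfl) (fun g z hz => by
      have : (1 : Unit →* SemilinearAut K M) g • z = z := one_smul _ _
      rw [this]; exact hz)
    (fun g z hz => by
      congr 1) (fun g => one_smul _ _)
  exact hG

end Inst

end Fermat.Agent.BC
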