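import Mathlib
import Fermat.Agent.ER.Red2

/-!
Reduction of principal divisors.
-/

set_option autoImplicit false
set_option linter.unusedSectionVars false

noncomputable section

namespace Fermat.Agent.BC

open AlgebraicCurve IsDedekindDomain IntermediateField WithZero Module Fermat.Agent.FunField
open Fermat.Agent.Flat Fermat.Agent.ER

variable {Ω κ F Fb : Type*} [Field Ω] [Field κ] [Field F] [Field Fb] [Algebra Ω F] [Algebra κ Fb]
  {A : ValuationSubring Ω} {G : Type*} [Group G] [MulSemiringAction G Ω]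
  [IsAlgClosed Ω] [IsAlgClosed κ] {r : A →+* κ} {γ : G →* SemilinearAut Ω F}
  {W : ValuationSubring F} {ρ : W →+* Fb} {t : F} {tb : Fb} {g C gb Cb : ℤ}
  {red : Place Ω F → Place κ Fb}

theorem eq_zero_of_dg {K F : Type*} [Field K] [Field F] [Algebra K F] {D : Divisor K F}
    (h : 0 ≤ D) (hd : dg D = 0) : D = 0 := by
  classical
  ext v
  rw [dg_apply] at hd
  have h1 := (Finset.sum_eq_zero_iff_of_nonneg (fun w _ => h w)).mp hd v
  by_contra hne
  exact hne (h1 (Finsupp.mem_support_iff.mpr hne))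

/-- **The divisor of the reduction is the reduction of the divisor.** -/
theorem red_dv (hG : GoodCrv r γ W ρ t tb) (hG' : GoodCrv r γ W ρ t⁻¹ tb⁻¹) (htW : t ∈ W)
    (htb : ρ ⟨t, htW⟩ = tb) (hC : Crv Ω F g C) (hCb : Crv κ Fb gb Cb)
    (hred : IsRed r ρ t tb red) {f : W} (hf : ρ f ≠ 0) (vb : Place κ Fb) :
    Finsupp.mapDomain red (dv (K := Ω) (f : F)) vb = vb.ord (ρ f) := by
  classical
  obtain ⟨hdeg, rfl, hpos⟩ := hG.numerics hC hCb
  have hf0 : (f : F) ≠ 0 := by
    intro h0
    apply hf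
    have : f = 0 := Subtype.ext h0
    rw [this, map_zero]
  obtain ⟨s, s', hss⟩ := exists_dvs (dv (K := Ω) (f : F))
  have hdiv : ∀ v : Place Ω F, v.ord (f : F) = dvs s v - dvs s' v := by
    intro v
    rw [← dv_apply (hC.fin _), hss]
    rfl
  have hcard : Multiset.card s = Multiset.card s' := by
    have h1 := congrArg dg hss
    rw [map_sub, dg_dvs, dg_dvs, hC.deg0 _ hf0] at h1
    omega
  -- the auxiliary divisor
  obtain ⟨n, hn⟩ : ∃ n : ℕ, max C Cb + 1 ≤ n * dg (pol (K := Ω) t) := by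
    refine ⟨(max C Cb + 1).toNat, ?_⟩
    have h1 : max C Cb + 1 ≤ ((max C Cb + 1).toNat : ℤ) := Int.self_le_toNat _
    have h2 : (0 : ℤ) ≤ ((max C Cb + 1).toNat : ℤ) := Int.natCast_nonneg _
    nlinarith
  have hnC : C + 1 ≤ n * dg (pol (K := Ω) t) := by have := le_max_left C Cb; omega
  have hnCb : Cb + 1 ≤ n * dg (pol (K := Ω) t) := by have := le_max_right C Cb; omega
  set E : Divisor Ω F := dvs s + n • pol (K := Ω) t + 0 • pol (K := Ω) t⁻¹ with hE
  set E' : Divisor Ω F := dvs s' + n • pol (K := Ω) t + 0 • pol (K := Ω) t⁻¹ with hE'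
  set Eb : Divisor κ Fb := dvs (s.map red) + n • pol (K := κ) tb + 0 • pol (K := κ) tb⁻¹ with hEb
  set Eb' : Divisor κ Fb := dvs (s'.map red) + n • pol (K := κ) tb + 0 • pol (K := κ) tb⁻¹
    with hEb'
  have hdE : dg E = Multiset.card s + n * dg (pol (K := Ω) t) := by
    rw [hE, map_add, map_add, zero_smul, map_zero, add_zero, map_nsmul, nsmul_eq_mul, dg_dvs]
  have hdEb : dg Eb = Multiset.card s + n * dg (pol (K := Ω) t) := by
    rw [hEb, map_add, map_add, zero_smul, map_zero, add_zero, map_nsmul, nsmul_eq_mul, dg_dvs,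
      Multiset.card_map, hdeg]
  have hcs : (0 : ℤ) ≤ (Multiset.card s : ℤ) := Int.natCast_nonneg _
  -- a basis of reductions
  obtain ⟨u, hu, hind⟩ := hG.sat (riemannRochSpace E) (hC.fd E)
  have hfd := hCb.fd Eb
  have hrr : (finrank Ω (riemannRochSpace E) : ℤ) = finrank κ (riemannRochSpace Eb) := by
    rw [hC.rr E (by omega), hCb.rr Eb (by omega), hdE, hdEb]
  have hub : ∀ i, ρ (u i) ∈ riemannRochSpace Eb := fun i =>
    redL_dvs hG hG' htW htb hCb hred s n 0 (u i) (hu i)
  let w : Fin (finrank Ω (riemannRochSpace E)) → riemannRochSpace Eb := fun i => ⟨ρ (u i), hub i⟩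
  have hw : LinearIndependent κ w := LinearIndependent.of_comp (riemannRochSpace _).subtype hind
  have hcard2 : Fintype.card (Fin (finrank Ω (riemannRochSpace E))) =
      finrank κ (riemannRochSpace Eb) := by
    rw [Fintype.card_fin]
    exact_mod_cast hrr
  have hspan := hw.span_eq_top_of_card_eq_finrank' hcard2
  -- multiplication by `ρ f`
  have hmul : ∀ zb ∈ riemannRochSpace Eb, ρ f * zb ∈ riemannRochSpace Eb' := by
    intro zb hzb
    have hmem : (⟨zb, hzb⟩ : riemannRochSpace Eb) ∈ Submodule.span κ (Set.range w) := by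
      rw [hspan]; trivial
    obtain ⟨c, hc⟩ := (Submodule.mem_span_range_iff_exists_fun κ).mp hmem
    have hc' := congrArg Subtype.val hc
    rw [Submodule.coe_sum] at hc'
    change ∑ i, c i • ρ (u i) = zb at hc'
    rw [← hc', Finset.mul_sum]
    refine sum_mem fun i _ => ?_
    rw [mul_smul_comm, ← map_mul]
    refine Submodule.smul_mem _ _ ?_
    rw [hEb']
    refine redL_dvs hG hG' htW htb hCb hred s' n 0 (f * u i) ?_
    have h1 := hu i
    push_cast
    by_cases hui : (u i : F) = 0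
    · rw [hui, mul_zero]; exact zero_mem _
    rw [mem_L' (mul_ne_zero hf0 hui)]
    intro v
    have h2 := (mem_L' hui).mp h1 v
    rw [v.ord_mul hf0 hui, hdiv v]
    simp only [hE, Finsupp.add_apply] at h2 ⊢
    linarith
  have hge : ∀ v : Place κ Fb, dvs (s.map red) v - dvs (s'.map red) v ≤ v.ord (ρ f) := by
    intro v
    obtain ⟨x, hx, hx0, hxv⟩ := exists_exact hCb Eb (by omega) v
    have h1 := (mem_L' (mul_ne_zero hf hx0)).mp (hmul x hx) v
    rw [v.ord_mul hf hx0, hxv, hEb, hEb'] at h1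
    simp only [Finsupp.add_apply] at h1
    linarith
  have hle : dvs (s.map red) - dvs (s'.map red) ≤ dv (K := κ) (ρ f) := by
    intro v
    rw [dv_apply (hCb.fin _)]
    exact hge v
  have hmap : Finsupp.mapDomain red (dv (K := Ω) (f : F)) =
      dvs (s.map red) - dvs (s'.map red) := by
    rw [hss, dvs_map, dvs_map, sub_eq_add_neg, sub_eq_add_neg, Finsupp.mapDomain_add]
    congr 1
    ext v
    exact congrArg (fun D : Divisor κ Fb => D v)
      (map_neg (Finsupp.mapDomain.addMonoidHom red) (dvs s' : Place Ω F →₀ ℤ))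
  have heq : dv (K := κ) (ρ f) = dvs (s.map red) - dvs (s'.map red) := by
    have h0 : 0 ≤ dv (K := κ) (ρ f) - (dvs (s.map red) - dvs (s'.map red)) := sub_nonneg.mpr hle
    have h1 : dg (dv (K := κ) (ρ f) - (dvs (s.map red) - dvs (s'.map red))) = 0 := by
      rw [map_sub, map_sub, dg_dvs, dg_dvs, Multiset.card_map, Multiset.card_map,
        hCb.deg0 _ hf, hcard]
      omega
    have h2 := eq_zero_of_dg h0 h1
    exact sub_eq_zero.mp h2
  rw [hmap, ← heq, dv_apply (hCb.fin _)]

end Fermat.Agent.BC
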