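import Mathlib
import Fermat.Agent.BC.Pre
import Fermat.Agent.BC.S1
import Fermat.Agent.MX.Rst
import Fermat.Agent.MZ.LiftM0
import Fermat.Agent.RJ.Pow

/-!
Extension of the base field: specialisation of places and divisors.
-/

set_option autoImplicit false
set_option linter.dupNamespace false
set_option linter.unusedSectionVars false

noncomputable section

namespace Fermat.Agent.BC

open AlgebraicCurve IsDedekindDomain IntermediateField Module Fermat.Agent.Flat
open Fermat.Agent.FunField Fermat.Agent.ER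
open Polynomial (aeval)

/-- places with the same values -/
theorem place_unique {k F : Type*} [Field k] [Field F] [Algebra k F] [IsAlgClosed k] {t : F}
    (ht : Sep k t) {v v' : Place k F} (hv : 0 ≤ v.ord t) (hv' : 0 ≤ v'.ord t)
    (h1 : ∀ z : F, Reg k t z → evp v z = evp v' z) : v = v' := by
  have := ht.fd
  have := ht.sep
  have := isPrincipalIdealRing_adjoin ht.trans
  have := isDedekindDomain_adjoin ht.trans
  have := isFractionRing_intClosure (K := k) t
  have := isDedekindDomain_intClosure ht.trans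
  set B := intClosure k t with hB
  have hBreg : ∀ b : B, Reg k t (b : F) := fun b v hv => ord_nonneg_of_isIntegral b.2 v hv
  obtain ⟨w, hw, hwm⟩ := exists_heightOneSpectrum v (R := B) fun b => (hBreg b).mem hv
  obtain ⟨w', hw', hwm'⟩ := exists_heightOneSpectrum v' (R := B) fun b => (hBreg b).mem hv'
  have h2 : w = w' := by
    apply HeightOneSpectrum.ext
    ext b
    have e1 : (b ∈ w.asIdeal ↔ evp v (b : F) = 0) := by
      rw [hwm, evp_eq_zero_iff (ht.rational v) ((hBreg b).mem hv)]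
      exact adicValuation_lt_one_iff v
    have e2 : (b ∈ w'.asIdeal ↔ evp v' (b : F) = 0) := by
      rw [hwm', evp_eq_zero_iff (ht.rational v') ((hBreg b).mem hv')]
      exact adicValuation_lt_one_iff v'
    rw [e1, e2, h1 _ (hBreg b)]
  rw [hw, hw', h2]

/-- a valuation ring of `K` over `k` with residue field `k` -/
structure VR (k K : Type*) [Field k] [Field K] [Algebra k K] where
  /-- the ring -/
  O : ValuationSubring K
  /-- the residue map -/
  r : O →+* k
  mem : ∀ c : k, algebraMap k K c ∈ O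
  rc : ∀ c : k, r ⟨algebraMap k K c, mem c⟩ = c

universe u

variable {k F : Type*} {K M : Type u} [Field k] [Field K] [Field F] [Field M] [Algebra k K]
  [Algebra k F] [Algebra K M] [Algebra F M] [Algebra k M] [IsScalarTower k K M]
  [IsScalarTower k F M] [IsAlgClosed k] [IsAlgClosed K] [CharZero k] [CharZero K]

variable (K M) in
/-- finiteness of the group of divisible functions -/
def FinSel (m : ℕ) : Prop := ∃ S : Set M, S.Finite ∧ ∀ f : M, f ≠ 0 →
  (∀ v : Place K M, (m : ℤ) ∣ v.ord f) → ∃ f' ∈ S, ∃ u : M, u ≠ 0 ∧ f = f' * u ^ m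

/-- the properties of the reduction of places -/
structure RedSpec (V : VR k K) (red : Place K M → Place k F) : Prop where
  dvM : ∀ f : M, f ≠ 0 → ∃ g : F, g ≠ 0 ∧ Finsupp.mapDomain red (dv (K := K) f) = dv (K := k) g
  dvF : ∀ f : F, f ≠ 0 → Finsupp.mapDomain red (dv (K := K) (algebraMap F M f)) = dv (K := k) f
  gen : ∀ (Q : Place K M) (P : Place k F), (∀ f : F, 0 ≤ P.ord f →
    0 ≤ Q.ord (algebraMap F M f) ∧ ∃ h : evp Q (algebraMap F M f) ∈ V.O, V.r ⟨_, h⟩ = evp P f) →
    red Q = P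
  tors : ∀ m : ℕ, m ≠ 0 → FinSel K M m → ∀ D : Divisor K M, Divisor.IsPrincipal (m • D) →
    Finsupp.mapDomain red D = 0 → Divisor.IsPrincipal D

/-- **Specialisation.** -/
theorem VR.exists_red (V : VR k K) (h : BC k K F M) {t : F} (ht : Sep k t)
    (ht' : Sep K (algebraMap F M t)) : ∃ red : Place K M → Place k F, RedSpec V red := by
  classical
  let _ : Algebra k V.O := ((algebraMap k K).codRestrict V.O.toSubring V.mem).toAlgebra
  have _ : IsScalarTower k V.O K := IsScalarTower.of_algebraMap_eq fun c => rfl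
  let r : V.O →ₐ[k] k := { V.r with commutes' := fun c => V.rc c }
  let _ := trivAct K
  have hrr : ∀ a : V.O, (r : V.O →+* k) a = V.r a := fun _ => rfl
  set t' := algebraMap F M t with ht'def
  have hti : algebraMap F M t⁻¹ = t'⁻¹ := map_inv₀ _ _
  have hG := goodCrv V.O r h ht ht'
  have hG' := goodCrv V.O r h ht.inv (by rw [hti]; exact ht'.inv)
  rw [hti] at hG'
  rw [← ht'def] at hG
  obtain ⟨htW, htb⟩ := gW_F V.O r h t
  obtain ⟨htW', -⟩ := gW_F V.O r h t⁻¹
  rw [hti] at htW'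
  rw [← ht'def] at htW
  have htb : gρ V.O r h ⟨t', htW⟩ = t := htb
  obtain ⟨red, hred⟩ := exists_isRed hG hG' htW htb htW'
  obtain ⟨g, C, hC⟩ := hG.sep.exists_crv
  obtain ⟨gb, Cb, hCb⟩ := hG.sepb.exists_crv
  have hI : Inert Unit (r : V.O →+* k) := by
    refine ⟨fun x => ⟨⟨algebraMap k K x, V.mem x⟩, fun g => rfl, V.rc x⟩, r_unit V.O r,
      fun g a ha => ha, fun g a ha => rfl⟩
  refine ⟨red, ⟨fun f hf => ?_, fun f hf => ?_, fun Q P hQP => ?_, fun m hm hSel D hD hD0 => ?_⟩⟩
  · obtain ⟨c, hc0, hcW, hcρ⟩ := hG.scale f hf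
    refine ⟨gρ V.O r h ⟨_, hcW⟩, hcρ, ?_⟩
    ext vb
    have h1 := red_dv hG hG' htW htb hC hCb hred hcρ vb
    rw [dv_apply (hCb.fin _), ← h1]
    congr 2
    ext v
    rw [dv_apply (hC.fin _), dv_apply (hC.fin _), v.ord_mul ((map_ne_zero _).mpr hc0) hf,
      ord_algebraMap, zero_add]
  · ext vb
    obtain ⟨hfW, hfρ⟩ := gW_F V.O r h f
    have h1 := red_dv hG hG' htW htb hC hCb hred (f := ⟨_, hfW⟩) (by rw [hfρ]; exact hf) vb
    rw [dv_apply (hCb.fin _), ← hfρ, ← h1]
    rw [hfρ]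
  · by_cases hP : 0 ≤ P.ord t
    · obtain ⟨h1, h2, h3⟩ := hQP t hP
      obtain ⟨h4, h5⟩ := hred.one Q ⟨h1, h2⟩
      refine place_unique ht h5 hP fun z hz => ?_
      obtain ⟨hfW, hfρ⟩ := gW_F V.O r h z
      obtain ⟨h6, h7⟩ := h4 ⟨_, hfW⟩ (am_reg K M ht hz)
      rw [hfρ] at h7
      obtain ⟨-, h8, h9⟩ := hQP z (hz P hP)
      rw [← h7, ← h9]
      rfl
    · have hP' : 0 ≤ P.ord t⁻¹ := by rw [P.ord_inv]; omega
      obtain ⟨h1, h2, h3⟩ := hQP t⁻¹ hP'
      rw [hti] at h1
      have h2' : evp Q t'⁻¹ ∈ V.O := by rw [← hti]; exact h2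
      obtain ⟨h4, h5⟩ := hred.two Q ⟨h1, h2'⟩
      refine place_unique ht.inv h5 hP' fun z hz => ?_
      obtain ⟨hfW, hfρ⟩ := gW_F V.O r h z
      obtain ⟨h6, h7⟩ := h4 ⟨_, hfW⟩ (by rw [← hti]; exact am_reg K M ht.inv hz)
      rw [hfρ] at h7
      obtain ⟨-, h8, h9⟩ := hQP z (hz P hP')
      rw [← h7, ← h9]
      rfl
  · obtain ⟨S, hS, hSel⟩ := hSel
    obtain ⟨f, hf0, hf⟩ := hD
    obtain ⟨c, hc0, hcW, hcρ⟩ := hG.scale f hf0
    obtain ⟨s, s', rfl⟩ := exists_dvs D
    have hord : ∀ v : Place K M, v.ord (algebraMap K M c * f) = (m • (dvs s - dvs s')) v := by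
      intro v
      rw [v.ord_mul ((map_ne_zero _).mpr hc0) hf0, ord_algebraMap, zero_add, hf v]
    have hred0 : dvs (s.map red) = dvs (s'.map red) := by
      rw [dvs_map, dvs_map, ← sub_eq_zero, ← Finsupp.mapDomain_sub]
      exact hD0
    obtain ⟨a, ha⟩ := exists_const_red hG hG' htW htb hC hCb hred (s := m • s) (s' := m • s')
      (f := ⟨_, hcW⟩) hcρ (fun v => by
        rw [dvs_nsmul, dvs_nsmul]
        change v.ord (algebraMap K M c * f) = _
        rw [hord v, smul_sub, Finsupp.sub_apply])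
      (by rw [Multiset.map_nsmul, Multiset.map_nsmul, dvs_nsmul, dvs_nsmul, hred0])
    obtain ⟨b, hb⟩ := IsAlgClosed.exists_pow_nat_eq a (Nat.pos_of_ne_zero hm)
    obtain ⟨u, hu⟩ := Fermat.Agent.RJ.pow_of_red hG hI htW htb hm (by
        rw [map_natCast]; exact_mod_cast hm) hS hSel (f := ⟨_, hcW⟩) hcρ
      (fun v => ⟨(dvs s - dvs s') v, by
        change v.ord (algebraMap K M c * f) = _
        rw [hord v, Finsupp.smul_apply, nsmul_eq_mul]⟩)
      (gb := algebraMap k F b) (by rw [← map_pow, hb, ha])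
    have hu : algebraMap K M c * f = u ^ m := hu
    have hcf : algebraMap K M c * f ≠ 0 := mul_ne_zero ((map_ne_zero _).mpr hc0) hf0
    have hu0 : u ≠ 0 := by
      rintro rfl
      rw [zero_pow hm] at hu
      exact hcf hu
    refine ⟨u, hu0, fun v => ?_⟩
    have h1 := hord v
    rw [hu, ord_pow, Finsupp.smul_apply, nsmul_eq_mul] at h1
    exact (mul_left_cancel₀ (by exact_mod_cast hm) h1).symm

end Fermat.Agent.BC
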