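import Mathlib
import Fermat.Agent.MW.Gen

/-!
# Generic points
-/

set_option autoImplicit false
set_option linter.unusedSectionVars false

noncomputable section

namespace Fermat.Agent.BC

open AlgebraicCurve Module Fermat.Agent.Flat Fermat.Agent.FunField IntermediateField
open Fermat.Agent.MW (ll single_nonneg' ll_mono ll_sub_eq one_mem_L one_le_ll)

section Bad

variable {k F : Type*} [Field k] [Field F] [Algebra k F] {g C : ℤ} (hC : Flat.Crv k F g C)

include hC

theorem ll_zero : ll (0 : Divisor k F) = 1 := by
  apply le_antisymm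
  · have h1 : riemannRochSpace (0 : Divisor k F) ≤ Submodule.span k {(1 : F)} := by
      intro z hz
      rw [Submodule.mem_span_singleton]
      by_cases hz0 : z = 0
      · exact ⟨0, by rw [hz0, zero_smul]⟩
      obtain ⟨a, ha⟩ := hC.const z (fun v => by
        have := (mem_L' hz0).mp hz v
        simpa using this)
      exact ⟨a, by rw [← ha, Algebra.algebraMap_eq_smul_one]⟩
    refine (Submodule.finrank_mono h1).trans ?_
    exact (finrank_span_le_card _).trans (by simp)
  · exact one_le_ll hC one_ne_zero (one_mem_L hC le_rfl)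

/-- the number of bad points -/
theorem card_bad' {G : Divisor k F} (hG : 0 ≤ G) (hdg : dg G < g) (hll : ll G ≤ 1)
    {Z : Finset (Place k F)} (hZ : ∀ v ∈ Z, 2 ≤ ll (G + Finsupp.single v 1)) :
    (Z.card : ℤ) ≤ max 0 (C - dg G) := by
  classical
  have key : ∀ Z' : Finset (Place k F), Z' ⊆ Z →
      Z'.card + 1 ≤ ll (G + ∑ v ∈ Z', Finsupp.single v (1 : ℤ)) := by
    intro Z'
    induction Z' using Finset.induction_on with
    | empty =>
      intro _
      rw [Finset.sum_empty, add_zero, Finset.card_empty, zero_add]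
      exact one_le_ll hC one_ne_zero (one_mem_L hC hG)
    | insert v Z' hv ih =>
      intro hsub
      have h1 := ih ((Finset.subset_insert v Z').trans hsub)
      have h2 := hZ v (hsub (Finset.mem_insert_self v Z'))
      obtain ⟨f, hf, hfG⟩ : ∃ f ∈ riemannRochSpace (G + Finsupp.single v 1),
          f ∉ riemannRochSpace G := by
        by_contra hcon
        push Not at hcon
        have h3 := hC.fd G
        have h4 : ll (G + Finsupp.single v 1) ≤ ll G := Submodule.finrank_mono hcon
        omega
      have hf0 : f ≠ 0 := by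
        rintro rfl
        exact hfG (zero_mem _)
      have h5 := (mem_L' hf0).mp hf
      have h6 : v.ord f = - (G v + 1) := by
        by_contra hne
        apply hfG
        rw [mem_L' hf0]
        intro w
        have h7 := h5 w
        rw [Finsupp.add_apply] at h7
        by_cases hw : w = v
        · subst hw
          rw [Finsupp.single_eq_same] at h7
          omega
        · rw [Finsupp.single_eq_of_ne hw] at h7
          omega
      have hsum0 : ∀ w, 0 ≤ (∑ u ∈ Z', Finsupp.single u (1 : ℤ) : Divisor k F) w := by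
        intro w
        rw [Finsupp.finsetSum_apply]
        exact Finset.sum_nonneg fun u _ => single_nonneg' u w
      have hsumv : (∑ u ∈ Z', Finsupp.single u (1 : ℤ) : Divisor k F) v = 0 := by
        rw [Finsupp.finsetSum_apply]
        exact Finset.sum_eq_zero fun u hu => Finsupp.single_eq_of_ne (by
          rintro rfl; exact hv hu)
      have h8 := ll_sub_eq hC (E := G + ∑ u ∈ insert v Z', Finsupp.single u (1 : ℤ)) (v := v) hf0
        (by
          rw [mem_L' hf0]
          intro w
          have h9 := h5 w
          have h10 := hsum0 w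
          rw [Finset.sum_insert hv]
          simp only [Finsupp.add_apply] at h9 ⊢
          linarith)
        (by
          rw [Finset.sum_insert hv]
          simp only [Finsupp.add_apply]
          rw [hsumv, Finsupp.single_eq_same, h6]
          ring)
      have h11 : G + ∑ u ∈ insert v Z', Finsupp.single u (1 : ℤ) - Finsupp.single v 1 =
          G + ∑ u ∈ Z', Finsupp.single u (1 : ℤ) := by
        rw [Finset.sum_insert hv]
        abel
      rw [h11] at h8
      rw [Finset.card_insert_of_notMem hv]
      omega
  by_contra hcon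
  rw [not_le] at hcon
  have h1 := key Z subset_rfl
  have h2 : dg (G + ∑ v ∈ Z, Finsupp.single v (1 : ℤ)) = dg G + Z.card := by
    rw [map_add, map_sum]
    simp
  have h3 := hC.rr (G + ∑ v ∈ Z, Finsupp.single v (1 : ℤ)) (by
    rw [h2]
    have := le_max_right 0 (C - dg G)
    omega)
  rw [h2] at h3
  change ((ll (G + ∑ v ∈ Z, Finsupp.single v (1 : ℤ)) : ℕ) : ℤ) = _ at h3
  omega

theorem finite_bad' {G : Divisor k F} (hG : 0 ≤ G) (hdg : dg G < g) (hll : ll G ≤ 1) :
    {v : Place k F | 2 ≤ ll (G + Finsupp.single v 1)}.Finite := by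
  by_contra hinf
  obtain ⟨t, ht, hcard⟩ := Set.Infinite.exists_subset_card_eq hinf
    ((max 0 (C - dg G)).toNat + 1)
  have h1 := card_bad' hC hG hdg hll (Z := t) (fun v hv => ht hv)
  rw [hcard] at h1
  have h2 := Int.self_le_toNat (max 0 (C - dg G))
  push_cast at h1
  omega

variable [IsAlgClosed k] [Uncountable k] {t : F} (ht : Sep k t)

include ht

theorem exists_place_val (c : k) : ∃ v : Place k F, 0 ≤ v.ord t ∧ evp v t = c := by
  obtain ⟨s, hs, hsum, hrat⟩ := ht.above c
  have hfd := ht.fd
  have hpos : 0 < finrank k⟮t⟯ F := finrank_pos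
  obtain ⟨v, hv⟩ : s.Nonempty := by
    by_contra hne
    rw [Finset.not_nonempty_iff_eq_empty] at hne
    rw [hne, Finset.sum_empty] at hsum
    omega
  have h1 := (hs v).mp hv
  refine ⟨v, ?_, ?_⟩
  · by_contra hneg
    push Not at hneg
    rw [ord_sub_of_neg v hneg] at h1
    omega
  · apply evp_unique
    rw [adicValuation_lt_one_iff]
    exact Or.inr h1

theorem exists_step {G : Divisor k F} (hG : 0 ≤ G) (hdg : dg G < g) (hll : ll G = 1)
    {S : Set k} (hS : S.Countable) : ∃ v : Place k F, 0 ≤ v.ord t ∧ evp v t ∉ S ∧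
      ll (G + Finsupp.single v 1) = 1 := by
  have hfin := finite_bad' hC hG hdg hll.le
  have hcount : (S ∪ (fun v => evp v t) '' {v : Place k F |
      2 ≤ ll (G + Finsupp.single v 1)}).Countable := hS.union (hfin.image _).countable
  obtain ⟨c, hc⟩ : ∃ c : k, c ∉ S ∪ (fun v => evp v t) '' {v : Place k F |
      2 ≤ ll (G + Finsupp.single v 1)} := by
    by_contra hcon
    push Not at hcon
    have h1 : (S ∪ (fun v => evp v t) '' {v : Place k F |
      2 ≤ ll (G + Finsupp.single v 1)}) = Set.univ := Set.eq_univ_of_forall hcon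
    rw [h1] at hcount
    exact Set.not_countable_univ hcount
  rw [Set.mem_union, not_or] at hc
  obtain ⟨v, hv, hvc⟩ := exists_place_val hC ht c
  refine ⟨v, hv, by rw [hvc]; exact hc.1, ?_⟩
  have h1 : ¬ 2 ≤ ll (G + Finsupp.single v 1) := fun h => hc.2 ⟨v, h, hvc⟩
  have h2 : ll G ≤ ll (G + Finsupp.single v 1) :=
    ll_mono hC (le_add_of_nonneg_right (single_nonneg' v))
  omega

/-- **Generic points** -/
theorem exists_generic (k0 : Type*) [Field k0] [Algebra k0 k] [Countable k0] (n : ℕ)
    (hn : (n : ℤ) ≤ g) : ∃ P : Fin n → Place k F, (∀ i, 0 ≤ (P i).ord t) ∧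
      AlgebraicIndependent k0 (fun i => evp (P i) t) ∧
      finrank k (riemannRochSpace (∑ i, Finsupp.single (P i) (1 : ℤ))) = 1 := by
  induction n with
  | zero =>
    refine ⟨fun i => i.elim0, fun i => i.elim0, ?_, ?_⟩
    · rw [algebraicIndependent_empty_type_iff]
      exact (algebraMap k0 k).injective
    · rw [Finset.univ_eq_empty, Finset.sum_empty]
      exact ll_zero hC
  | succ n ih =>
    obtain ⟨P, hP, hind, hll⟩ := ih (by push_cast at hn; omega)
    have hG : (0 : Divisor k F) ≤ ∑ i, Finsupp.single (P i) (1 : ℤ) :=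
      Finset.sum_nonneg fun i _ => single_nonneg' _
    have hdg : dg (∑ i, Finsupp.single (P i) (1 : ℤ)) < g := by
      rw [map_sum]
      push_cast at hn
      simp
      omega
    have hcA : Countable (Algebra.adjoin k0 (Set.range fun i => evp (P i) t)) := by
      rw [← Cardinal.mk_le_aleph0_iff]
      have h1 := Algebra.lift_cardinalMk_adjoin_le k0 (Set.range fun i => evp (P i) t)
      have hr : Countable (Set.range fun i => evp (P i) t) :=
        (Set.countable_range _).to_subtype
      rw [← Cardinal.lift_le_aleph0]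
      refine h1.trans (max_le (max_le ?_ ?_) le_rfl)
      · exact Cardinal.lift_le_aleph0.mpr Cardinal.mk_le_aleph0
      · exact Cardinal.lift_le_aleph0.mpr Cardinal.mk_le_aleph0
    have hS : {z : k | IsAlgebraic (Algebra.adjoin k0 (Set.range fun i => evp (P i) t)) z}.Countable :=
      Algebraic.countable _ _
    obtain ⟨v, hv, hvS, hvl⟩ := exists_step hC ht hG hdg hll hS
    refine ⟨Fin.cons v P, ?_, ?_, ?_⟩
    · intro i
      refine Fin.cases ?_ (fun j => ?_) i
      · exact hv
      · exact hP j
    · have h1 := (hind.option_iff_transcendental (evp v t)).mpr hvS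
      rw [← algebraicIndependent_equiv (finSuccEquiv n)] at h1
      convert h1 using 1
      funext i
      refine Fin.cases ?_ (fun j => ?_) i
      · simp
      · simp
    · rw [Fin.sum_univ_succ]
      change finrank k (riemannRochSpace (Finsupp.single v (1 : ℤ) +
        ∑ i, Finsupp.single (P i) (1 : ℤ))) = 1
      rw [add_comm]
      exact hvl

instance countable_Qb : Countable (AlgebraicClosure ℚ) := by
  rw [← Cardinal.mk_le_aleph0_iff]
  have : Algebra.IsAlgebraic ℚ (AlgebraicClosure ℚ) := AlgebraicClosure.isAlgebraic ℚ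
  have h := Algebra.IsAlgebraic.cardinalMk_le_max ℚ (AlgebraicClosure ℚ)
  refine h.trans (max_le Cardinal.mk_le_aleph0 le_rfl)

end Bad

section Exchange

variable {k0 K : Type*} [Field k0] [Field K] [Algebra k0 K]

theorem indep_range {n : ℕ} {z : Fin n → K} (hz : AlgebraicIndependent k0 z) :
    (AlgebraicIndependent.matroid k0 K).Indep (Set.range z) := by
  rw [AlgebraicIndependent.matroid_indep_iff]
  exact (algebraicIndependent_subtype_range hz.injective).mpr hz

theorem card_le_of_isAlgebraic {n : ℕ} {z : Fin n → K} (hz : AlgebraicIndependent k0 z)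
    {T : Set K} (h : ∀ i, IsAlgebraic (Algebra.adjoin k0 T) (z i)) : (n : ℕ∞) ≤ T.encard := by
  have h1 := (indep_range hz).encard_le_eRk_of_subset
    (X := (AlgebraicIndependent.matroid k0 K).closure T) (by
      rintro _ ⟨i, rfl⟩
      rw [AlgebraicIndependent.matroid_closure_eq]
      exact h i)
  rw [Matroid.eRk_closure_eq] at h1
  have h2 : (Set.range z).encard = n := by
    rw [← Set.image_univ, hz.injective.encard_image, Set.encard_univ]
    simp
  rw [← h2]
  exact h1.trans (Matroid.eRk_le_encard _ _)

/-- **Exchange** -/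
theorem exchange_adjoin {n : ℕ} {z : Fin n → K} (hz : AlgebraicIndependent k0 z) {T : Finset K}
    (hT : T.card ≤ n) (h : ∀ i, IsAlgebraic (Algebra.adjoin k0 (T : Set K)) (z i)) :
    T.card = n ∧ ∀ x ∈ T, ¬ IsAlgebraic (Algebra.adjoin k0 ((T : Set K) \ {x})) x := by
  classical
  have h1 := card_le_of_isAlgebraic hz h
  rw [Set.encard_coe_eq_coe_finsetCard] at h1
  have h2 : n ≤ T.card := by exact_mod_cast h1
  refine ⟨le_antisymm hT h2, fun x hx hax => ?_⟩
  have h3 : ∀ i, IsAlgebraic (Algebra.adjoin k0 ((T : Set K) \ {x})) (z i) := by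
    intro i
    refine (h i).adjoin_of_forall_isAlgebraic fun y hy => ?_
    have hyx : y = x := by
      by_contra hne
      exact hy.2 ⟨hy.1, hne⟩
    rw [hyx]
    exact hax
  have h4 := card_le_of_isAlgebraic hz h3
  rw [← Finset.coe_singleton, ← Finset.coe_sdiff, Set.encard_coe_eq_coe_finsetCard] at h4
  have h5 : n ≤ (T \ {x}).card := by exact_mod_cast h4
  rw [Finset.card_sdiff_of_subset (Finset.singleton_subset_iff.mpr hx),
    Finset.card_singleton] at h5
  have h6 : 0 < T.card := Finset.card_pos.mpr ⟨x, hx⟩
  omega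

open scoped IntermediateField.algebraAdjoinAdjoin in
theorem isAlgebraic_adjoin_iff (T : Set K) (x : K) :
    IsAlgebraic (IntermediateField.adjoin k0 T) x ↔ IsAlgebraic (Algebra.adjoin k0 T) x :=
  (IsFractionRing.isAlgebraic_iff (Algebra.adjoin k0 T) (IntermediateField.adjoin k0 T) K).symm

/-- **Exchange**, for subfields -/
theorem exchange {n : ℕ} {z : Fin n → K} (hz : AlgebraicIndependent k0 z) {T : Finset K}
    (hT : T.card ≤ n) (h : ∀ i, IsAlgebraic (IntermediateField.adjoin k0 (T : Set K)) (z i)) :
    T.card = n ∧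
      ∀ x ∈ T, ¬ IsAlgebraic (IntermediateField.adjoin k0 ((T : Set K) \ {x})) x := by
  simp only [isAlgebraic_adjoin_iff] at h ⊢
  exact exchange_adjoin hz hT h

end Exchange

end Fermat.Agent.BC
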