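import Mathlib
import Fermat.Agent.BC.ExtP
import Fermat.Agent.BC.Gen

/-!
The generic point argument: divisibility of the class group.
-/

set_option autoImplicit false
set_option linter.dupNamespace false
set_option linter.unusedSectionVars false

noncomputable section

namespace Fermat.Agent.BC

open AlgebraicCurve IsDedekindDomain IntermediateField Module Fermat.Agent.Flat
open Fermat.Agent.FunField Fermat.Agent.ER

section Defs

variable {K M : Type*} [Field K] [Field M] [Algebra K M]

/-- the value of `t` is in `S ∪ {∞}` -/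
def XS (t : M) (S : Set K) (Q : Place K M) : Prop := 0 ≤ Q.ord t → Flat.evp Q t ∈ S

/-- the divisor is supported on such points -/
def Supp (t : M) (S : Set K) (D : Divisor K M) : Prop := ∀ Q, D Q ≠ 0 → XS t S Q

theorem XS.mono {t : M} {S S' : Set K} (h : S ⊆ S') {Q : Place K M} (hQ : XS t S Q) :
    XS t S' Q := fun h0 => h (hQ h0)

theorem Supp.add {t : M} {S : Set K} {D E : Divisor K M} (hD : Supp t S D) (hE : Supp t S E) :
    Supp t S (D + E) := by
  intro Q hQ
  by_cases h : D Q = 0
  · refine hE Q fun h' => hQ ?_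
    rw [Finsupp.add_apply, h, h', add_zero]
  · exact hD Q h

theorem Supp.zsmul {t : M} {S : Set K} {Q : Place K M} (hQ : XS t S Q) (n : ℤ) :
    Supp t S (Finsupp.single Q n) := by
  classical
  intro R hR
  rw [Finsupp.single_apply] at hR
  split_ifs at hR with h
  · rwa [← h]
  · exact absurd rfl hR

/-- what we use about an algebraically closed subfield `S` -/
structure Lvl (t : M) (S : Set K) (m : ℕ) : Prop where
  pur : ∀ D E : Divisor K M, 0 ≤ D → Supp t S E → Divisor.IsPrincipal (m • D - E) →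
    ∃ D' : Divisor K M, 0 ≤ D' ∧ Supp t S D' ∧ Divisor.IsPrincipal (D - D')
  spec : ∀ Q R : Place K M, ¬ XS t S Q → XS t S R → ∃ sp : Divisor K M →+ Divisor K M,
    (∀ D, Divisor.IsPrincipal D → Divisor.IsPrincipal (sp D)) ∧
    sp (Finsupp.single Q 1) = Finsupp.single R 1 ∧ (∀ D, Supp t S D → sp D = D) ∧
    ∀ D, dg (sp D) = dg D

theorem dg_zero_of_principal {g C : ℤ} (hC : Crv K M g C) {D : Divisor K M}
    (hD : Divisor.IsPrincipal D) : dg D = 0 := by
  obtain ⟨f, hf0, hf⟩ := hD
  have h1 : D = dv (K := K) f := by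
    ext v
    rw [hf v, dv_apply (hC.fin _)]
  rw [h1]
  exact hC.deg0 f hf0

theorem exists_effective {g C : ℤ} (hC : Crv K M g C) {D : Divisor K M} (hD : g ≤ dg D) :
    ∃ D' : Divisor K M, 0 ≤ D' ∧ dg D' = dg D ∧ Divisor.IsPrincipal (D - D') := by
  have h1 := hC.lb D
  have hfd := hC.fd D
  have h2 : 0 < finrank K (riemannRochSpace D) := by
    have : (0 : ℤ) < finrank K (riemannRochSpace D) := by omega
    exact_mod_cast this
  have : Nontrivial (riemannRochSpace D) := Module.nontrivial_of_finrank_pos h2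
  obtain ⟨⟨f, hf⟩, hf0⟩ := exists_ne (0 : riemannRochSpace D)
  have hf0' : f ≠ 0 := fun h => hf0 (Subtype.ext h)
  have h3 := (mem_L' hf0').mp hf
  refine ⟨D + dv (K := K) f, fun v => ?_, by rw [map_add, hC.deg0 f hf0', add_zero],
    ⟨f⁻¹, inv_ne_zero hf0', fun v => ?_⟩⟩
  · rw [Finsupp.add_apply, dv_apply (hC.fin _), Finsupp.zero_apply]
    have := h3 v
    omega
  · rw [Finsupp.sub_apply, Finsupp.add_apply, dv_apply (hC.fin _), v.ord_inv]
    ring

theorem eq_of_ll_one {g C : ℤ} (hC : Crv K M g C) {D D' : Divisor K M}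
    (hD : 0 ≤ D) (hl : finrank K (riemannRochSpace D) = 1) (hD' : 0 ≤ D')
    (h : Divisor.IsPrincipal (D - D')) : D' = D := by
  obtain ⟨f, hf0, hf⟩ := h
  have h1 : (f⁻¹ : M) ∈ riemannRochSpace D := by
    rw [mem_L' (inv_ne_zero hf0)]
    intro v
    rw [v.ord_inv, ← hf v, Finsupp.sub_apply]
    have := hD' v
    rw [Finsupp.zero_apply] at this
    omega
  have h2 : (1 : M) ∈ riemannRochSpace D := by
    rw [mem_L' one_ne_zero]
    intro v
    rw [v.ord_one]
    have := hD v
    rw [Finsupp.zero_apply] at this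
    omega
  obtain ⟨c, hc⟩ := (finrank_eq_one_iff_of_nonzero' (⟨1, h2⟩ : riemannRochSpace D)
    (fun h0 => one_ne_zero (congrArg Subtype.val h0))).mp hl ⟨f⁻¹, h1⟩
  have h3 : f⁻¹ = algebraMap K M c := by
    have := congrArg Subtype.val hc
    refine this.symm.trans ?_
    change c • (1 : M) = _
    rw [Algebra.smul_def, mul_one]
  ext v
  have h4 := hf v
  have h5 : v.ord f = 0 := by
    have h6 : v.ord f⁻¹ = 0 := by rw [h3, ord_algebraMap]
    rw [v.ord_inv] at h6
    omega
  rw [Finsupp.sub_apply, h5] at h4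
  omega

end Defs

section Main

variable {k0 K M : Type*} [Field k0] [Field K] [Field M] [Algebra k0 K] [Algebra K M]
  [IsAlgClosed K] [Uncountable K] [Countable k0]

variable (k0) in
/-- the algebraic closure of `k0(T)` -/
def cl (T : Set K) : Set K := {x | IsAlgebraic (IntermediateField.adjoin k0 T) x}

theorem subset_cl (T : Set K) : T ⊆ cl k0 T := fun x hx => by
  have h1 : x ∈ IntermediateField.adjoin k0 T := IntermediateField.subset_adjoin k0 T hx
  exact isAlgebraic_algebraMap (⟨x, h1⟩ : IntermediateField.adjoin k0 T)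

theorem cl_mono {T T' : Set K} (h : T ⊆ T') : cl k0 T ⊆ cl k0 T' := by
  intro x hx
  have hx' : IsAlgebraic (IntermediateField.adjoin k0 T) x := hx
  change IsAlgebraic (IntermediateField.adjoin k0 T') x
  rw [isAlgebraic_adjoin_iff] at hx' ⊢
  exact hx'.adjoin_of_forall_isAlgebraic (fun y hy => absurd (h hy.1) hy.2)

/-- **Divisibility of differences of constant points.** -/
theorem exists_div {g C : ℤ} (hC : Crv K M g C) {t : M} (ht : Sep K t) {m : ℕ}
    (hL : ∀ T : Finset K, Lvl t (cl k0 (T : Set K)) m) (inf : Place K M)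
    (hinf : XS t (cl k0 ∅) inf) (R R' : Place K M) (hR : XS t (cl k0 ∅) R)
    (hR' : XS t (cl k0 ∅) R') : ∃ Z : Divisor K M, dg Z = 0 ∧
      Divisor.IsPrincipal (m • Z - (Finsupp.single R 1 - Finsupp.single R' 1)) := by
  classical
  rcases le_or_gt g 0 with hg | hg
  · -- genus zero
    obtain ⟨D', hD', hdg, hp⟩ := exists_effective hC
      (D := Finsupp.single R' 1 - Finsupp.single R 1) (by rw [map_sub, dg_single, dg_single]; omega)
    rw [map_sub, dg_single, dg_single, sub_self] at hdg
    have h0 := eq_zero_of_dg hD' hdg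
    refine ⟨0, map_zero _, ?_⟩
    rw [h0, sub_zero] at hp
    rw [smul_zero, zero_sub, neg_sub]
    exact hp
  obtain ⟨n, hn⟩ := Int.eq_ofNat_of_zero_le hg.le
  have hn0 : 0 < n := by omega
  obtain ⟨P, hPt, hPi, hPl⟩ := exists_generic hC ht k0 n (by omega)
  set DP : Divisor K M := ∑ i, Finsupp.single (P i) (1 : ℤ) with hDP
  have hDPdg : dg DP = n := by
    rw [hDP, map_sum]
    simp
  have hDP0 : 0 ≤ DP := by
    rw [hDP]
    refine Finset.sum_nonneg fun i _ => ?_
    intro v
    rw [Finsupp.zero_apply, Finsupp.single_apply]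
    split_ifs <;> norm_num
  have hDPv : ∀ i, DP (P i) ≠ 0 := by
    intro i h0
    have h1 : (Finsupp.single (P i) (1 : ℤ) : Divisor K M) (P i) ≤ DP (P i) := by
      rw [hDP, Finsupp.finsetSum_apply]
      refine Finset.single_le_sum (f := fun j => (Finsupp.single (P j) (1 : ℤ) :
        Divisor K M) (P i)) (fun j _ => ?_) (Finset.mem_univ i)
      rw [Finsupp.single_apply]
      split_ifs <;> norm_num
    rw [h0, Finsupp.single_eq_same] at h1
    omega
  -- the multiple
  set I : ℤ → Divisor K M := fun j => Finsupp.single inf j with hI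
  obtain ⟨D', hD'0, hD'dg, hD'p⟩ := exists_effective hC
    (D := m • DP + I (n - m * n)) (by
      rw [map_add, map_nsmul, hDPdg, hI, dg_single, nsmul_eq_mul, hn]
      push_cast; linarith)
  have hD'dg' : dg D' = n := by
    rw [hD'dg, map_add, map_nsmul, hDPdg, hI, dg_single, nsmul_eq_mul]
    ring
  set T : Finset K := (D'.support.filter fun Q => 0 ≤ Q.ord t).image fun Q => Flat.evp Q t with hT
  have hge : ∀ Q ∈ D'.support, 1 ≤ D' Q := by
    intro Q hQ
    have h1 := hD'0 Q
    have h2 := Finsupp.mem_support_iff.mp hQ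
    rw [Finsupp.zero_apply] at h1
    omega
  have hcard1 : (D'.support.card : ℤ) ≤ n := by
    rw [← hD'dg', dg_apply, Finset.card_eq_sum_ones]
    push_cast
    exact Finset.sum_le_sum hge
  have hTcard1 : T.card ≤ (D'.support.filter fun Q => 0 ≤ Q.ord t).card := Finset.card_image_le
  have hTcard2 : (D'.support.filter fun Q => 0 ≤ Q.ord t).card ≤ D'.support.card :=
    Finset.card_filter_le _ _
  have hTcard : T.card ≤ n := by omega
  have hinfT : ∀ T' : Finset K, XS t (cl k0 (T' : Set K)) inf := fun T' =>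
    hinf.mono (cl_mono (Set.empty_subset _))
  have hD'T : Supp t (cl k0 (T : Set K)) D' := by
    intro Q hQ h0
    refine subset_cl _ ?_
    rw [hT]
    exact Finset.mem_coe.mpr (Finset.mem_image.mpr ⟨Q, Finset.mem_filter.mpr
      ⟨Finsupp.mem_support_iff.mpr hQ, h0⟩, rfl⟩)
  -- purity
  obtain ⟨D'', h1, h2, h3⟩ := (hL T).pur DP (D' + I (m * n - n)) hDP0
    (hD'T.add (Supp.zsmul (hinfT T) _)) (by
      refine IsPrincipal.congr hD'p ?_
      have : I (m * n - n) = - I (n - m * n) := by
        simp only [hI]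
        rw [← Finsupp.single_neg]
        congr 1
        ring
      rw [this]
      abel)
  have h4 := eq_of_ll_one hC hDP0 hPl h1 h3
  have h5 : ∀ i, IsAlgebraic (IntermediateField.adjoin k0 (T : Set K)) (Flat.evp (P i) t) := by
    intro i
    rw [h4] at h2
    exact h2 (P i) (hDPv i) (hPt i)
  obtain ⟨h6, h7⟩ := exchange hPi hTcard h5
  -- the divisor `D'`
  have hc1 : D'.support.card = n := by omega
  have hc2 : (D'.support.filter fun Q => 0 ≤ Q.ord t).card = n := by omega
  have hfilt : D'.support.filter (fun Q => 0 ≤ Q.ord t) = D'.support :=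
    Finset.eq_of_subset_of_card_le (Finset.filter_subset _ _) (by omega)
  have hone : ∀ Q ∈ D'.support, D' Q = 1 := by
    have h8 : ∑ Q ∈ D'.support, (D' Q - 1) = 0 := by
      rw [Finset.sum_sub_distrib, ← dg_apply, hD'dg']
      simp [hc1]
    have h9 := (Finset.sum_eq_zero_iff_of_nonneg (fun Q hQ => by
      have := hge Q hQ; omega)).mp h8
    intro Q hQ
    have := h9 Q hQ
    omega
  have hinj : Set.InjOn (fun Q : Place K M => Flat.evp Q t) D'.support := by
    rw [← hfilt]
    refine Finset.card_image_iff.mp ?_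
    rw [← hT, h6, hc2]
  have hne : D'.support.Nonempty := Finset.card_pos.mp (by omega)
  obtain ⟨Q, hQ⟩ := hne
  have hQt : 0 ≤ Q.ord t := by
    rw [← hfilt] at hQ
    exact (Finset.mem_filter.mp hQ).2
  have hQT : Flat.evp Q t ∈ T := by
    rw [hT, hfilt]
    exact Finset.mem_image.mpr ⟨Q, hQ, rfl⟩
  set A : Finset K := T.erase (Flat.evp Q t) with hA
  have hAT : ((T : Set K) \ {Flat.evp Q t}) = (A : Set K) := by
    rw [hA, Finset.coe_erase]
  have hQA : ¬ XS t (cl k0 (A : Set K)) Q := by
    intro h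
    have h8 := h7 _ hQT
    rw [hAT] at h8
    exact h8 (h hQt)
  set D2 : Divisor K M := D' - Finsupp.single Q 1 with hD2
  have hD2s : Supp t (cl k0 (A : Set K)) D2 := by
    intro Q' hQ' h0
    refine subset_cl _ ?_
    have h8 : Q' ≠ Q := by
      rintro rfl
      apply hQ'
      rw [hD2, Finsupp.sub_apply, hone _ hQ, Finsupp.single_eq_same, sub_self]
    have h9 : Q' ∈ D'.support := by
      rw [Finsupp.mem_support_iff]
      intro h10
      apply hQ'
      rw [hD2, Finsupp.sub_apply, h10, Finsupp.single_eq_of_ne h8, sub_zero]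
    rw [hA]
    refine Finset.mem_coe.mpr (Finset.mem_erase.mpr ⟨fun h10 => h8 (hinj h9 hQ h10), ?_⟩)
    rw [hT, hfilt]
    exact Finset.mem_image.mpr ⟨Q', h9, rfl⟩
  have hspec : ∀ R : Place K M, XS t (cl k0 ∅) R → ∃ Z : Divisor K M, dg Z = n ∧
      Divisor.IsPrincipal (m • Z + I (n - m * n) - (D2 + Finsupp.single R 1)) := by
    intro R hR
    obtain ⟨sp, hsp1, hsp2, hsp3, hsp4⟩ := (hL A).spec Q R hQA
      (hR.mono (cl_mono (Set.empty_subset _)))
    refine ⟨sp DP, by rw [hsp4, hDPdg], ?_⟩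
    have h8 := hsp1 _ hD'p
    have h9 : D' = D2 + Finsupp.single Q 1 := by rw [hD2, sub_add_cancel]
    rw [h9, map_sub, map_add, map_add, map_nsmul, hsp2, hsp3 _ hD2s,
      hsp3 _ (Supp.zsmul (hinfT A) _)] at h8
    exact h8
  obtain ⟨Z, hZ, hZp⟩ := hspec R hR
  obtain ⟨Z', hZ', hZp'⟩ := hspec R' hR'
  refine ⟨Z - Z', by rw [map_sub, hZ, hZ', sub_self], ?_⟩
  refine IsPrincipal.congr (IsPrincipal.sub hZp hZp') ?_
  rw [smul_sub]
  abel

end Main

end Fermat.Agent.BC
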