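import Mathlib
import Fermat.Agent.BC.ExtP

/-!
Valuation rings attached to generic points.
-/

set_option autoImplicit false
set_option linter.dupNamespace false
set_option linter.unusedSectionVars false

noncomputable section

namespace Fermat.Agent.BC

open AlgebraicCurve IsDedekindDomain IntermediateField Module Fermat.Agent.Flat
open Fermat.Agent.FunField Fermat.Agent.ER

/-- the extension property of homomorphisms to an algebraically closed field -/
def Chev (K k : Type*) [Field K] [Field k] : Prop := ∀ (R : Subring K) (φ : R →+* k),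
  ∃ (O : ValuationSubring K) (r : O →+* k) (h : R ≤ O.toSubring), ∀ x : R, r ⟨x, h x.2⟩ = φ x

theorem exists_VR0 {k K : Type*} [Field k] [Field K] [Algebra k K] (hC : Chev K k) :
    Nonempty (VR k K) := by
  let e : k ≃+* (algebraMap k K).range :=
    RingEquiv.ofBijective (algebraMap k K).rangeRestrict
      ⟨(algebraMap k K).injective.codRestrict _, (algebraMap k K).rangeRestrict_surjective⟩
  obtain ⟨O, r, h, hr⟩ := hC (algebraMap k K).range e.symm
  refine ⟨⟨O, r, fun c => h ⟨c, rfl⟩, fun c => ?_⟩⟩
  have h1 := hr ⟨algebraMap k K c, ⟨c, rfl⟩⟩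
  refine h1.trans ?_
  change e.symm (e c) = c
  exact e.symm_apply_apply c

universe u

variable {k F : Type*} {K M : Type u} [Field k] [Field K] [Field F] [Field M] [Algebra k K]
  [Algebra k F] [Algebra K M] [Algebra F M] [Algebra k M] [IsScalarTower k K M]
  [IsScalarTower k F M] [IsAlgClosed k] [IsAlgClosed K] [CharZero k] [CharZero K]

/-- evaluation of regular functions -/
def evHom {k F : Type*} [Field k] [Field F] [Algebra k F] (P : Place k F) (hP : Rational P) :
    P.toValuationSubring →+* k where
  toFun x := Flat.evp P (x : F)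
  map_one' := evp_one
  map_zero' := evp_zero
  map_mul' x y := evp_mul hP x.2 y.2
  map_add' x y := evp_add hP x.2 y.2

/-- the embedding of `F` defined by a generic point -/
def genHom (Q : Place K M) (hr : Rational Q)
    (hQ : ∀ f : F, f ≠ 0 → Q.ord (algebraMap F M f) = 0) : F →+* K :=
  (evHom Q hr).comp ((algebraMap F M).codRestrict Q.toValuationSubring.toSubring fun f => by
    by_cases hf : f = 0
    · rw [hf, map_zero]; exact Subring.zero_mem _
    · exact mem_of_ord_nonneg Q (hQ f hf).ge)

theorem genHom_apply (Q : Place K M) (hr : Rational Q)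
    (hQ : ∀ f : F, f ≠ 0 → Q.ord (algebraMap F M f) = 0) (f : F) :
    genHom Q hr hQ f = Flat.evp Q (algebraMap F M f) := rfl

/-- **Generic points specialise to every point.** -/
theorem exists_VR (hC : Chev K k) {Q : Place K M} (hr : Rational Q)
    (hQ : ∀ f : F, f ≠ 0 → Q.ord (algebraMap F M f) = 0) (P : Place k F) (hP : Rational P) :
    ∃ V : VR k K, ∀ red : Place K M → Place k F, RedSpec V red → red Q = P := by
  let ε : F →+* K := genHom Q hr hQ
  let S : Subring F := P.toValuationSubring.toSubring
  let e : S ≃+* S.map ε := S.equivMapOfInjective ε ε.injective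
  obtain ⟨O, r, h, hrr⟩ := hC (S.map ε) ((evHom P hP : S →+* k).comp (e.symm : S.map ε →+* S))
  have key : ∀ (f : F) (hf : f ∈ S), ∃ h' : ε f ∈ O, r ⟨ε f, h'⟩ = Flat.evp P f := by
    intro f hf
    have hmem : ε f ∈ S.map ε := ⟨f, hf, rfl⟩
    refine ⟨h hmem, ?_⟩
    have h1 := hrr ⟨ε f, hmem⟩
    refine h1.trans ?_
    have h2 : e.symm ⟨ε f, hmem⟩ = ⟨f, hf⟩ := by
      change e.symm (e ⟨f, hf⟩) = _
      exact e.symm_apply_apply _
    change evHom P hP (e.symm ⟨ε f, hmem⟩) = _
    rw [h2]
    rfl
  have hc : ∀ c : k, ε (algebraMap k F c) = algebraMap k K c := by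
    intro c
    change Flat.evp Q (algebraMap F M (algebraMap k F c)) = _
    rw [← IsScalarTower.algebraMap_apply k F M, IsScalarTower.algebraMap_apply k K M,
      evp_algebraMap]
  have key2 : ∀ c : k, ∃ h' : algebraMap k K c ∈ O, r ⟨algebraMap k K c, h'⟩ = c := by
    intro c
    obtain ⟨h1, h2⟩ := key (algebraMap k F c) (P.algebraMap_mem' c)
    have h3 : algebraMap k K c ∈ O := by rw [← hc c]; exact h1
    refine ⟨h3, ?_⟩
    have h4 : (⟨algebraMap k K c, h3⟩ : O) = ⟨ε (algebraMap k F c), h1⟩ := Subtype.ext (hc c).symm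
    rw [h4, h2, evp_algebraMap]
  let V : VR k K := ⟨O, r, fun c => (key2 c).1, fun c => (key2 c).2⟩
  refine ⟨V, fun red hred => hred.gen Q P fun f hf => ?_⟩
  refine ⟨?_, key f (mem_of_ord_nonneg P hf)⟩
  by_cases hf0 : f = 0
  · rw [hf0, map_zero, Q.ord_zero]
  · exact (hQ f hf0).ge

end Fermat.Agent.BC
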