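import Mathlib
import Fermat.Agent.BC.GenV
import Fermat.Agent.BC.Fin
import Fermat.Agent.BC.Ext

/-!
The level structure of an algebraically closed subfield; divisibility over the small field.
-/

set_option autoImplicit false
set_option linter.dupNamespace false
set_option linter.unusedSectionVars false

noncomputable section

namespace Fermat.Agent.BC

open AlgebraicCurve IsDedekindDomain IntermediateField Module Fermat.Agent.Flat
open Fermat.Agent.FunField Fermat.Agent.ER

theorem chev (K k : Type*) [Field K] [Field k] [IsAlgClosed k] : Chev K k := fun R φ => by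
  obtain ⟨O, r, h, h1, -⟩ := exists_ext R φ
  exact ⟨O, r, h, h1⟩

theorem mapDomain_nonneg {α β : Type*} (f : α → β) {D : α →₀ ℤ} (hD : 0 ≤ D) :
    0 ≤ Finsupp.mapDomain f D := by
  classical
  intro b
  rw [Finsupp.zero_apply, Finsupp.mapDomain, Finsupp.sum_apply, Finsupp.sum]
  refine Finset.sum_nonneg fun a _ => ?_
  rw [Finsupp.single_apply]
  split_ifs
  · exact hD a
  · exact le_rfl

theorem dg_mapDomain {K F k F' : Type*} [Field K] [Field F] [Algebra K F] [Field k] [Field F']
    [Algebra k F'] (f : Place K F → Place k F') (D : Divisor K F) :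
    dg (Finsupp.mapDomain f D : Divisor k F') = dg D := by
  classical
  induction D using Finsupp.induction_linear with
  | zero => rw [Finsupp.mapDomain_zero, map_zero, map_zero]
  | add D E hD hE => rw [Finsupp.mapDomain_add, map_add, map_add, hD, hE]
  | single v n => rw [Finsupp.mapDomain_single, dg_single, dg_single]

universe u

variable {k F : Type*} {K M : Type u} [Field k] [Field K] [Field F] [Field M] [Algebra k K]
  [Algebra k F] [Algebra K M] [Algebra F M] [Algebra k M] [IsScalarTower k K M]
  [IsScalarTower k F M] [IsAlgClosed k] [IsAlgClosed K] [CharZero k] [CharZero K]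

theorem XS_iff {t : F} (ht : Sep k t) (ht' : Sep K (algebraMap F M t)) (Q : Place K M) :
    XS (algebraMap F M t) (Set.range (algebraMap k K)) Q ↔ ∃ P : Place k F, Above Q P :=
  (exists_above_iff ht ht' Q).symm

theorem ext_red_of_supp {ext : Place k F → Place K M} (he : IsExt ext) {V : VR k K}
    {red : Place K M → Place k F} (h : RedSpec V red) {t : F} (ht : Sep k t)
    (ht' : Sep K (algebraMap F M t)) {E : Divisor K M}
    (hE : Supp (algebraMap F M t) (Set.range (algebraMap k K)) E) :
    Finsupp.mapDomain ext (Finsupp.mapDomain red E) = E := by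
  rw [← Finsupp.mapDomain_comp]
  conv_rhs => rw [← Finsupp.mapDomain_id (v := E)]
  refine Finsupp.mapDomain_congr fun Q hQ => ?_
  obtain ⟨P, hP⟩ := (XS_iff ht ht' Q).mp (hE Q (Finsupp.mem_support_iff.mp hQ))
  rw [Function.comp_apply, h.above ht hP, id]
  exact (he.uniq P Q hP).symm

/-- the level structure of the subfield `k` -/
theorem lvl_of (h : BC k K F M) {t : F} (ht : Sep k t) (ht' : Sep K (algebraMap F M t)) {m : ℕ}
    (hm : m ≠ 0) (hSel : FinSel K M m) :
    Lvl (algebraMap F M t) (Set.range (algebraMap k K)) m where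
  pur D E hD hE hDE := by
    obtain ⟨V⟩ := exists_VR0 (chev K k)
    obtain ⟨red, hred⟩ := V.exists_red h ht ht'
    obtain ⟨ext, hext⟩ := exists_isExt hred ht ht'
    refine ⟨Finsupp.mapDomain ext (Finsupp.mapDomain red D),
      mapDomain_nonneg _ (mapDomain_nonneg _ hD), fun Q hQ => ?_, ?_⟩
    · rw [XS_iff ht ht', ← hext.mem_range]
      by_contra hcon
      refine hQ (Finsupp.mapDomain_of_notMem_range _ _ fun ⟨P, hP⟩ => hcon ⟨P, hP.symm⟩)
    · refine purity hext hred ht ht' hm hSel (E := Finsupp.mapDomain red E) ?_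
      rw [ext_red_of_supp hext hred ht ht' hE]
      exact hDE
  spec Q R hQ hR := by
    rw [XS_iff ht ht'] at hQ hR
    obtain ⟨P, hP⟩ := hR
    have hQ0 := (above_or (k := k) (F := F) Q).resolve_left hQ
    obtain ⟨V, hV⟩ := exists_VR (chev K k) (ht'.rational Q) hQ0 P (ht.rational P)
    obtain ⟨red, hred⟩ := V.exists_red h ht ht'
    obtain ⟨ext, hext⟩ := exists_isExt hred ht ht'
    refine ⟨(Finsupp.mapDomain.addMonoidHom ext).comp (Finsupp.mapDomain.addMonoidHom red),
      fun D hD => ?_, ?_, fun D hD => ?_, fun D => ?_⟩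
    · exact hext.principal hred ht ht' (hred.principal ht ht' hD)
    · change Finsupp.mapDomain ext (Finsupp.mapDomain red _) = _
      rw [Finsupp.mapDomain_single, Finsupp.mapDomain_single, hV red hred,
        ← hext.uniq P R hP]
    · exact ext_red_of_supp hext hred ht ht' hD
    · change dg (Finsupp.mapDomain ext (Finsupp.mapDomain red D)) = _
      rw [dg_mapDomain, dg_mapDomain]

/-- **Divisibility** over the small field. -/
theorem exists_div_small (h : BC k K F M) {t : F} (ht : Sep k t)
    (ht' : Sep K (algebraMap F M t)) {m : ℕ}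
    (hdiv : ∀ R R' : Place K M, XS (algebraMap F M t) (Set.range (algebraMap k K)) R →
      XS (algebraMap F M t) (Set.range (algebraMap k K)) R' → ∃ Z : Divisor K M, dg Z = 0 ∧
      Divisor.IsPrincipal (m • Z - (Finsupp.single R 1 - Finsupp.single R' 1)))
    {D : Divisor k F} (hD : dg D = 0) : ∃ Z : Divisor k F, dg Z = 0 ∧
      Divisor.IsPrincipal (m • Z - D) := by
  classical
  obtain ⟨V⟩ := exists_VR0 (chev K k)
  obtain ⟨red, hred⟩ := V.exists_red h ht ht'
  obtain ⟨ext, hext⟩ := exists_isExt hred ht ht'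
  have hnsmul : ∀ (n : ℕ) (D : Divisor K M), Finsupp.mapDomain red (n • D) =
      n • Finsupp.mapDomain red D := fun n D =>
    map_nsmul (Finsupp.mapDomain.addMonoidHom (M := ℤ) red) n D
  have h1 : ∀ P P' : Place k F, ∃ Z : Divisor k F, dg Z = 0 ∧
      Divisor.IsPrincipal (m • Z - (Finsupp.single P 1 - Finsupp.single P' 1)) := by
    intro P P'
    obtain ⟨Z, hZ, hp⟩ := hdiv (ext P) (ext P') ((XS_iff ht ht' _).mpr ⟨P, hext.above P⟩)
      ((XS_iff ht ht' _).mpr ⟨P', hext.above P'⟩)
    refine ⟨Finsupp.mapDomain red Z, by rw [dg_mapDomain, hZ], ?_⟩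
    have h2 := hred.principal ht ht' hp
    rw [Finsupp.mapDomain_sub, Finsupp.mapDomain_sub, hnsmul, Finsupp.mapDomain_single,
      Finsupp.mapDomain_single, hext.red_ext hred ht, hext.red_ext hred ht] at h2
    exact h2
  obtain ⟨P0⟩ := ht.nonempty
  have h2 : ∀ D : Divisor k F, ∃ Z : Divisor k F, dg Z = 0 ∧
      Divisor.IsPrincipal (m • Z - (D - Finsupp.single P0 (dg D))) := by
    intro D
    induction D using Finsupp.induction_linear with
    | zero =>
      refine ⟨0, map_zero _, ?_⟩
      rw [smul_zero, map_zero, Finsupp.single_zero, sub_zero, sub_zero]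
      exact IsPrincipal.zero
    | add D E hD hE =>
      obtain ⟨Z, hZ, hZp⟩ := hD
      obtain ⟨Y, hY, hYp⟩ := hE
      refine ⟨Z + Y, by rw [map_add, hZ, hY, add_zero], ?_⟩
      refine IsPrincipal.congr (IsPrincipal.add hZp hYp) ?_
      rw [smul_add, map_add, Finsupp.single_add]
      abel
    | single v n =>
      obtain ⟨Z, hZ, hZp⟩ := h1 v P0
      refine ⟨n • Z, by rw [map_zsmul, hZ, smul_zero], ?_⟩
      have h3 : Divisor.IsPrincipal (n • (m • Z - (Finsupp.single v 1 - Finsupp.single P0 1))) :=
        Divisor.principal.zsmul_mem hZp n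
      refine IsPrincipal.congr h3 ?_
      rw [smul_sub, smul_sub, Finsupp.smul_single, Finsupp.smul_single, smul_eq_mul, mul_one,
        dg_single, smul_comm]
  obtain ⟨Z, hZ, hp⟩ := h2 D
  refine ⟨Z, hZ, ?_⟩
  rwa [hD, Finsupp.single_zero, sub_zero] at hp

end Fermat.Agent.BC
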