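import Mathlib
import Fermat.Agent.BC.Lvl
import Fermat.Agent.BC.Sel
import Fermat.Agent.BC.InstF0

/-!
Divisibility of the class group of `X₀(N)`.
-/

set_option autoImplicit false
set_option linter.dupNamespace false
set_option linter.unusedSectionVars false

noncomputable section

namespace Fermat.Agent.BC

open AlgebraicCurve IsDedekindDomain IntermediateField Module Fermat.Agent.Flat
open Fermat.Agent.FunField Fermat.Agent.ER Fermat.Agent.LG Fermat.Agent.ModFun
open Fermat.Agent.ESCore (ιC)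

/-- The field of algebraic numbers. -/
local notation "Qb" => AlgebraicClosure ℚ

variable (N : ℕ) [NeZero N]

theorem finSel_C {m : ℕ} (hm : m ≠ 0) : FinSel ℂ (F0 ℂ N) m :=
  exists_finite_sel' (RingHom.id ℂ) (Nat.pos_of_ne_zero hm)

theorem lvl_L (L : Type) [Field L] [IsAlgClosed L] [CharZero L] [Algebra L ℂ] {m : ℕ}
    (hm : m ≠ 0) : Lvl (jF ℂ N) (Set.range (algebraMap L ℂ)) m := by
  let _ := algF L N
  let _ := algL L N
  have := tower_algL L N
  have := tower_algF L N
  have h1 := lvl_of (bc_F0 L N) (sep_jF_L L N) (by rw [algebraMap_jF]; exact sep_jF_C N) hm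
    (finSel_C N hm)
  rwa [algebraMap_jF] at h1

theorem range_closure (k0 : Type) [Field k0] [Algebra k0 ℂ] (T : Set ℂ) :
    Set.range (algebraMap (algebraicClosure (IntermediateField.adjoin k0 T) ℂ) ℂ) = cl k0 T := by
  ext x
  constructor
  · rintro ⟨y, rfl⟩
    exact mem_algebraicClosure_iff.mp y.2
  · intro hx
    exact ⟨⟨x, mem_algebraicClosure_iff.mpr hx⟩, rfl⟩

theorem lvl_cl (k0 : Type) [Field k0] [Algebra k0 ℂ] (T : Set ℂ) {m : ℕ} (hm : m ≠ 0) :
    Lvl (jF ℂ N) (cl k0 T) m := by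
  rw [← range_closure]
  have h1 : IsAlgClosure (IntermediateField.adjoin k0 T)
      (algebraicClosure (IntermediateField.adjoin k0 T) ℂ) := inferInstance
  have h2 : IsAlgClosed (algebraicClosure (IntermediateField.adjoin k0 T) ℂ) := h1.isAlgClosed
  have h3 : CharZero (algebraicClosure (IntermediateField.adjoin k0 T) ℂ) :=
    (algebraMap (algebraicClosure (IntermediateField.adjoin k0 T) ℂ) ℂ).charZero
  exact lvl_L N _ hm

/-- **Divisibility**, for divisors. -/
theorem exists_div_divisor {m : ℕ} (hm : m ≠ 0) {D : Divisor Qb (F0 Qb N)} (hD : dg D = 0) :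
    ∃ Z : Divisor Qb (F0 Qb N), dg Z = 0 ∧ Divisor.IsPrincipal (m • Z - D) := by
  let _ : Algebra Qb ℂ := ιC.toAlgebra
  let _ := algF Qb N
  let _ := algL Qb N
  have := tower_algL Qb N
  have := tower_algF Qb N
  obtain ⟨g, C, hC⟩ := (sep_jF_C N).exists_crv
  have hunc : Uncountable ℂ := by
    rw [← Cardinal.aleph0_lt_mk_iff, Cardinal.mk_complex]
    exact Cardinal.aleph0_lt_continuum
  have hsub : Set.range (algebraMap Qb ℂ) ⊆ cl Qb (∅ : Set ℂ) := by
    rintro _ ⟨c, rfl⟩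
    change IsAlgebraic _ _
    rw [IsScalarTower.algebraMap_apply Qb (IntermediateField.adjoin Qb (∅ : Set ℂ)) ℂ]
    exact isAlgebraic_algebraMap _
  have ht' : Sep ℂ (algebraMap (F0 Qb N) (F0 ℂ N) (jF Qb N)) := by
    rw [algebraMap_jF]; exact sep_jF_C N
  -- a constant place
  obtain ⟨V⟩ := exists_VR0 (chev ℂ Qb)
  obtain ⟨red, hred⟩ := V.exists_red (bc_F0 Qb N) (sep_jF_L Qb N) ht'
  obtain ⟨ext, hext⟩ := exists_isExt hred (sep_jF_L Qb N) ht'
  obtain ⟨P0⟩ := (sep_jF_L Qb N).nonempty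
  have hinf : XS (jF ℂ N) (cl Qb (∅ : Set ℂ)) (ext P0) := by
    have h1 := (XS_iff (sep_jF_L Qb N) ht' (ext P0)).mpr ⟨P0, hext.above P0⟩
    rw [algebraMap_jF] at h1
    exact h1.mono hsub
  refine exists_div_small (bc_F0 Qb N) (sep_jF_L Qb N) ht' (fun R R' hR hR' => ?_) hD
  rw [algebraMap_jF] at hR hR'
  exact exists_div (k0 := Qb) hC (sep_jF_C N) (fun T => lvl_cl N Qb (T : Set ℂ) hm) (ext P0) hinf
    R R' (hR.mono hsub) (hR'.mono hsub)

end Fermat.Agent.BC
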