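import Mathlib
import Fermat.Agent.BC.Div
import Fermat.Agent.MW.WkA

/-!
Divisibility of `J₀(N)(ℚ̄)`.
-/

set_option autoImplicit false
set_option linter.dupNamespace false
set_option linter.unusedSectionVars false

noncomputable section

namespace Fermat.Agent.BC

open AlgebraicCurve IsDedekindDomain IntermediateField Module Fermat.Agent.Flat ModularCurve
open Fermat.Agent.FunField Fermat.Agent.ER Fermat.Agent.LG Fermat.Agent.ModFun

/-- The field of algebraic numbers. -/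
local notation "Qb" => AlgebraicClosure ℚ

variable (N : ℕ) [NeZero N]

theorem div_pic0 {m : ℕ} (hm : m ≠ 0) (x : Pic0 Qb (F0 Qb N)) :
    ∃ y : Pic0 Qb (F0 Qb N), m • y = x := by
  obtain ⟨D, rfl⟩ := Pic0.mk_surjective x
  have hs : Flat.Sep Qb (jF Qb N) := MZ.sep_jF ESCore.ιC
  obtain ⟨Z, hZ, hp⟩ := exists_div_divisor N hm (D := (D : Divisor Qb (F0 Qb N))) (by
    rw [← degree_eq_dg hs]; exact D.2)
  refine ⟨Pic0.mk ⟨Z, by rw [Divisor.mem_degZero, degree_eq_dg hs, hZ]⟩, ?_⟩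
  have h1 : m • Pic0.mk (K := Qb) (F := F0 Qb N) ⟨Z, by
      rw [Divisor.mem_degZero, degree_eq_dg hs, hZ]⟩ =
      Pic0.mk (m • ⟨Z, by rw [Divisor.mem_degZero, degree_eq_dg hs, hZ]⟩) := rfl
  rw [h1]
  unfold Pic0.mk
  rw [QuotientAddGroup.eq_iff_sub_mem, AddSubgroup.mem_addSubgroupOf]
  exact hp

/-- **`J₀(N)(ℚ̄)` is divisible.** -/
theorem div_jzero {m : ℕ} (hm : m ≠ 0) (x : JZero N) : ∃ y : JZero N, m • y = x := by
  obtain ⟨e, -⟩ := Fermat.Agent.MW.exists_equiv N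
  obtain ⟨y, hy⟩ := div_pic0 N hm (e x)
  refine ⟨e.symm y, ?_⟩
  rw [← map_nsmul, hy, e.symm_apply_apply]

end Fermat.Agent.BC
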